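import Mathlib
import Fermat.Agent.TW.FlatBridge.MatFontaine
import Fermat.Agent.TW.KumEigen.Allowed
import Fermat.Agent.TW.Sel.Class
import Fermat.Agent.Pseudo.CycloPow

/-!
# S56 / LOC-flat, the consumer seam: a flat tangent cocycle is `Allowed`

`r : MatRep k[ε]` flat at `p` with cyclotomic determinant, `ξ := adCochain ∘ localGaloisToGlobal p`
its tangent cocycle restricted to `G_p = Gal(PadicAlgCl p / ℚ_p)`.  Then `ξ` is `Allowed` for every
tame datum `D` whose group `D.H` is the fixing subgroup of an intermediate field `F`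
(helper20's `KumEigen.Allowed`), GIVEN the output `A5FieldOut` of the (e)+(f1) seam (helper2's
(A5-field)): a Kummer radical `β ∈ F·L` of a character of `G_F` lies in `(1+pO_F)·F^{×p}` whenever
`L/ℚ_p` is finite Galois with Fontaine's `(P_m)`, `m > p/(p-1)`.

The facts proved here (SEAM-L):
* `adCochain_eq_zero_of_apply_eq_one` : `r g = 1 ⇒ ξ g = 0`;
* `apply_rootOfUnity_eq_of_matRep_eq_one` : `r (localGaloisToGlobal p τ) = 1 ⇒ τ` fixes the `p`-th
  roots of unity of `PadicAlgCl p` (determinant = cyclotomic character);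
* `allowed_of_flat`.
-/

set_option autoImplicit false
set_option linter.unusedSectionVars false
set_option linter.style.haveILetI false

namespace Fermat.Agent.TW.LocFlat

open IsLocalRing Fermat.Agent.S53 Fermat.Agent.TW.Sel Fermat.Agent.TW.Ad0 Fermat.Agent.TW.Ram
  Fermat.Agent.TW.KumEigen Fermat.Agent.TW.FlatBridge IntermediateField

local notation "Qb" => AlgebraicClosure ℚ
local notation "GQ" => (AlgebraicClosure ℚ ≃ₐ[ℚ] AlgebraicClosure ℚ)

variable (p : ℕ) [hp : Fact p.Prime]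

local notation "Ωp" => PadicAlgCl p
local notation "Gp" => (PadicAlgCl p ≃ₐ[ℚ_[p]] PadicAlgCl p)

/-- **Contract (A5-field)** (helper2, F3-(e)+(f1) seam), Ω-level norm form. -/
def A5FieldOut : Prop :=
  ∀ (L : IntermediateField ℚ_[p] Ωp) (_ : FiniteDimensional ℚ_[p] L), IsGalois ℚ_[p] L →
    FontainePAbove ℤ_[p] ℚ_[p] L ((p : ℕ) : ℤ_[p]) p (p - 1) →
    ∀ (F : IntermediateField ℚ_[p] Ωp) (ζ : Ωp), IsPrimitiveRoot ζ p → ζ ∈ F → ζ ∈ L →
    ∀ β : Ωp, β ≠ 0 → β ^ p ∈ F → β ∈ F ⊔ L →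
      ∃ c ∈ F, c ≠ 0 ∧ ‖β ^ p / c ^ p - 1‖ ≤ ‖(p : Ωp)‖

variable {k : Type} [Field k] {ρbar : ResidualGaloisRep k}

/-- The tangent cochain vanishes where the lift is trivial. -/
theorem adCochain_eq_zero_of_apply_eq_one (Lf : TanLift (stdMat ρbar).toHom) {g : GQ}
    (hg : Lf.R g = 1) : Lf.adCochain g = 0 := by
  have h1 : tanCochain Lf.R g = 0 := by
    rw [tanCochain, hg]
    have : msnd (1 : Matrix (Fin 2) (Fin 2) (DualNumber k)) = 0 := by
      ext i j
      simp [msnd, Matrix.one_apply]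
      split_ifs <;> simp
    rw [this, zero_mul]
  show toAd0 ρbar (Lf.endCochain g) = 0
  have h2 : Lf.endCochain g = 0 := by
    apply Subtype.ext
    rw [TanLift.coe_endCochain, h1, map_zero]
    rfl
  rw [h2]
  rfl

/-- a natural number which is `1` in a field of characteristic `p` fixes the `p`-th roots of
unity under `μ ↦ μ ^ a`. -/
theorem pow_eq_self_of_natCast_eq_one [CharP k p] {a : ℕ} (ha : (a : k) = 1) {M : Type*} [Monoid M]
    {μ : M} (hμ : μ ^ p = 1) : μ ^ a = μ := by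
  have h1 : ((a : ℤ) - 1 : ℤ) = ((a - 1 : ℤ)) := rfl
  have h2 : (((a : ℤ) - 1 : ℤ) : k) = 0 := by
    push_cast
    rw [ha, sub_self]
  have h3 : (p : ℤ) ∣ (a : ℤ) - 1 := (CharP.intCast_eq_zero_iff k p _).mp h2
  have ha0 : a ≠ 0 := by
    rintro rfl
    rw [Nat.cast_zero] at ha
    exact zero_ne_one ha
  obtain ⟨t, ht⟩ := h3
  have ht0 : 0 ≤ t := by
    have hp0 : (0 : ℤ) < p := by exact_mod_cast (Fact.out : p.Prime).pos
    have : (0 : ℤ) ≤ (a : ℤ) - 1 := by omega
    rw [ht] at this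
    exact nonneg_of_mul_nonneg_right this hp0
  obtain ⟨s, rfl⟩ := Int.eq_ofNat_of_zero_le ht0
  have h4 : a = 1 + p * s := by
    have : (a : ℤ) = 1 + p * s := by linarith
    exact_mod_cast this
  rw [h4, pow_add, pow_one, pow_mul, hμ, one_pow, mul_one]

/-- **det = cyclotomic**: where a `k[ε]`-lift with cyclotomic determinant is trivial, the `p`-th
roots of unity of `PadicAlgCl p` are fixed. -/
theorem apply_rootOfUnity_eq_of_matRep_eq_one [CharP k p] (r : MatRep (DualNumber k))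
    (hdet : r.toAdic.DetIsCyclotomic p) (τ : Gp) (hτ : r (localGaloisToGlobal p τ) = 1)
    {z : Ωp} (hz : z ^ p = 1) : τ z = z := by
  haveI : NeZero p := ⟨(Fact.out : p.Prime).ne_zero⟩
  set g : GQ := localGaloisToGlobal p τ with hg
  set a : ℕ := ((Fermat.Agent.Pseudo.Cyclo.cycloN p g : (ZMod p)ˣ) : ZMod p).val with ha
  have hspec : ∀ μ : Qb, μ ^ p = 1 → g μ = μ ^ a := fun μ hμ =>
    Fermat.Agent.Pseudo.Cyclo.cycloN_spec p g hμ
  -- the determinant condition at level `n = 1`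
  have h1 := hdet.2 1 g a (fun μ hμ => hspec μ (by rwa [pow_one] at hμ))
  have hp0 : ((p ^ 1 : ℕ) : DualNumber k) = 0 := by
    rw [pow_one]
    have : (p : DualNumber k) = TrivSqZeroExt.inl (p : k) := by
      rw [← TrivSqZeroExt.inl_natCast]
    rw [this, CharP.cast_eq_zero k p, TrivSqZeroExt.inl_zero]
  rw [hp0, Ideal.span_singleton_eq_bot.mpr rfl, Ideal.mem_bot, sub_eq_zero] at h1
  have hone : r.toAdic.ρ g = 1 := by
    apply LinearMap.ext
    intro v
    have h : r.toAdic.ρ g v = (r g).mulVec (show Fin 2 → DualNumber k from v) := rfl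
    rw [h, hτ]
    exact Matrix.one_mulVec _
  rw [hone, map_one] at h1
  -- so `a = 1` in `k`
  have hak : (a : k) = 1 := by
    have := congrArg TrivSqZeroExt.fst h1
    rw [TrivSqZeroExt.fst_one, TrivSqZeroExt.fst_natCast] at this
    exact this.symm
  -- `z` is the image of a root of unity of `Qb`
  obtain ⟨μ₀, hμ₀⟩ := HasEnoughRootsOfUnity.exists_primitiveRoot Qb p
  have hμ₀' : IsPrimitiveRoot (padicEmbedding p μ₀) p :=
    hμ₀.map_of_injective (padicEmbedding p).toRingHom.injective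
  obtain ⟨i, -, rfl⟩ := hμ₀'.eq_pow_of_pow_eq_one hz
  rw [map_pow, ← padicEmbedding_localGaloisToGlobal, ← hg, hspec μ₀ hμ₀.pow_eq_one,
    pow_eq_self_of_natCast_eq_one p hak hμ₀.pow_eq_one]

/-- **A flat tangent cocycle is allowed** (SS and ORD consumer seam).  `D.H` is the absolute
Galois group of the intermediate field `F`. -/
theorem allowed_of_flat [CharP k p] [Finite k] (hA5 : A5FieldOut p)
    (D : TameData p ℚ_[p] Ωp) (F : IntermediateField ℚ_[p] Ωp) (hDH : D.H = F.fixingSubgroup)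
    (r : MatRep (DualNumber k)) (hflat : r.toAdic.IsFlatAt p)
    (hdet : r.toAdic.DetIsCyclotomic p)
    (Lf : TanLift (stdMat ρbar).toHom) (hL : Lf.R = r.toHom) :
    Allowed D (fun τ : Gp => Lf.adCochain (localGaloisToGlobal p τ)) := by
  have hpA : (p : DualNumber k) = 0 := by
    have : (p : DualNumber k) = TrivSqZeroExt.inl (p : k) := by
      rw [← TrivSqZeroExt.inl_natCast]
    rw [this, CharP.cast_eq_zero k p, TrivSqZeroExt.inl_zero]
  haveI : Finite (DualNumber k) := by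
    unfold DualNumber TrivSqZeroExt
    infer_instance
  obtain ⟨L, hfd, hgal, hfix, hP⟩ := exists_fontainePAbove_of_matRep p r hflat hpA
  -- membership in an intermediate field via the infinite Galois correspondence
  have hmem : ∀ (E : IntermediateField ℚ_[p] Ωp) (x : Ωp), (∀ σ ∈ E.fixingSubgroup, σ x = x) → x ∈ E := by
    intro E x hx
    have h1 : x ∈ IntermediateField.fixedField E.fixingSubgroup := fun σ => hx σ.1 σ.2
    rwa [InfiniteGalois.fixedField_fixingSubgroup] at h1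
  intro lam β ⟨hβ0, hβ⟩
  have hζF : D.ζp ∈ F := hmem F _ (fun σ hσ => D.ζp_mem σ (hDH ▸ hσ))
  have hζL : D.ζp ∈ L := hmem L _ (fun σ hσ =>
    apply_rootOfUnity_eq_of_matRep_eq_one p r hdet σ ((hfix σ).mp hσ) D.hζp.pow_eq_one)
  have hβpF : β ^ p ∈ F := by
    refine hmem F _ (fun σ hσ => ?_)
    rw [map_pow, hβ σ (hDH ▸ hσ), mul_pow, ← pow_mul, mul_comm _ p, pow_mul, D.hζp.pow_eq_one,
      one_pow, one_mul]
  have hβFL : β ∈ F ⊔ L := by
    refine hmem (F ⊔ L) _ (fun σ hσ => ?_)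
    rw [IntermediateField.fixingSubgroup_sup] at hσ
    have h0 : Lf.adCochain (localGaloisToGlobal p σ) = 0 :=
      adCochain_eq_zero_of_apply_eq_one Lf (by rw [hL]; exact (hfix σ).mp hσ.2)
    have h1 := hβ σ (hDH ▸ hσ.1)
    simp only [h0, map_zero, ZMod.val_zero, pow_zero, one_mul] at h1
    exact h1
  obtain ⟨c, hcF, hc0, hc⟩ := hA5 L hfd hgal hP F D.ζp D.hζp hζF hζL β hβ0 hβpF hβFL
  refine ⟨c, ?_, hc0, hc⟩
  intro σ hσ
  exact (IntermediateField.mem_fixingSubgroup_iff _ _).mp (hDH ▸ hσ) c hcF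

end Fermat.Agent.TW.LocFlat
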