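import Mathlib
import Fermat.Agent.TW.LocFlat.AllowedOfFlat
import Fermat.Agent.TW.KumBreak.SeamOmega

/-!
# S56 / LOC-flat: the seam contract `A5FieldOut` is discharged by helper2's (A5-field)
`KumBreak.allowed_of_flat_field` (F3-(e) packaged + (f1) Kummer breaks + descent).
-/

set_option autoImplicit false
set_option linter.style.haveILetI false

namespace Fermat.Agent.TW.LocFlat

/-- **(A5-field)**: the Ω-level seam between (e)+(f1) and the consumer side of LOC-flat. -/
theorem a5FieldOut (p : ℕ) [hp : Fact p.Prime] : A5FieldOut p :=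
  fun L hfd hgal hP F ζ hζ hζF hζL β hβ hβp hβFL => by
    haveI := hfd
    haveI := hgal
    exact Fermat.Agent.TW.KumBreak.allowed_of_flat_field p L hP F hζ hζF hζL hβ hβp hβFL

end Fermat.Agent.TW.LocFlat
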