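import Mathlib

/-!
# S56 / LOC-flat: the `ℤ`-linear action underlying a representation

`repActZ A : G →* Module.End ℤ A`, `g ↦ (A.ρ g).restrictScalars ℤ` — the shape of action used by
the Kummer eigenspace count (`KumEigen.IsGood`, `finrank_range_le_one`).
-/

set_option autoImplicit false

universe u

namespace Fermat.Agent.TW.LocFlat

variable {k G : Type u} [CommRing k] [Group G]

/-- The `ℤ`-linear action underlying a representation. -/
noncomputable def repActZ (A : Rep.{u} k G) : G →* Module.End ℤ A where
  toFun g := (A.ρ g).restrictScalars ℤ
  map_one' := by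
    ext x
    simp
  map_mul' g h := by
    ext x
    simp

@[simp] theorem repActZ_apply (A : Rep.{u} k G) (g : G) (x : A) : repActZ A g x = A.ρ g x := rfl

theorem repActZ_smul (A : Rep.{u} k G) (g : G) (a : k) (x : A) :
    repActZ A g (a • x) = a • repActZ A g x := by
  simp

end Fermat.Agent.TW.LocFlat
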