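import Mathlib
import Fermat.Agent.CFT.Local.LCKummerLocal
import Fermat.Agent.CFT.LC.KummerPairing

/-!
# TW / LocFlat, dictionary (D2): Kummer theory for `G_F = Gal(Ω/F)` in the LC dialect

`Ω/k` Galois, `ζ ∈ Ω` a primitive `p`-th root of unity, `F` an intermediate field, `U = Gal(Ω/F)`.
For `ψ : U → ZMod p` and `α, w : Ω`:

* `IsKummerRoot ζ F ψ α` : `u α = ζ ^ (ψ u) * α` for all `u ∈ U`;
* `IsKummerChar ζ F ψ w` : some `α` with `α ^ p = w` is a Kummer root of `ψ`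
  (`ψ = ψ_w`, `ψ_w(u) = u(w^{1/p}) / w^{1/p}` read in `𝔽_p` via `ζ`).

Main statements (`ζ ∈ F`, `L` a level structure of Galois type):

* `exists_isKummerChar` (Hilbert 90): every LC character `ψ` of `U` is `ψ_w` for some `w ∈ Fˣ`;
* `exists_xChar_isKummerChar`: every `w ∈ Fˣ` has a Kummer character (`Ω` algebraically closed);
* `IsKummerChar.unique`, `IsKummerChar.exists_pow_eq`: `ψ` is determined by `w`, and `w` by `ψ` up
  to `p`-th powers of `Fˣ`;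
* `IsKummerChar.mul`, `.inv`, `.zero_pow`: additivity;
* `IsKummerChar.conj`: `ψ_{σ w}(u) = ω(σ) · ψ_w(σ⁻¹ u σ)` for `σ ∈ Gal(Ω/k)`, `ω = hζ.autToPow k`;
* `IsKummerRoot.eq_zero_iff`, `IsKummerRoot.mem_fixingSubgroup_iff`: `ker ψ_w = Gal(Ω/F(w^{1/p}))`.
-/

set_option autoImplicit false
set_option linter.unusedSectionVars false
set_option linter.style.haveILetI false

open CategoryTheory groupCohomology IntermediateField

namespace Fermat.Agent.TW.LocFlat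

open Fermat.Agent.CFT Fermat.Agent.CFT.GaloisTower

variable {k Ω : Type} [Field k] [Field Ω] [Algebra k Ω] [IsGalois k Ω]
  {p : ℕ} [Fact p.Prime] {ζ : Ω}

/-- `α` is a Kummer root of `ψ`: `u α = ζ ^ ψ(u) · α` for `u ∈ Gal(Ω/F)`. -/
def IsKummerRoot (ζ : Ω) (F : IntermediateField k Ω) (ψ : ↥F.fixingSubgroup → ZMod p) (α : Ω) :
    Prop :=
  ∀ u : ↥F.fixingSubgroup, (u : Ω ≃ₐ[k] Ω) α = ζ ^ (ψ u).val * α

/-- `ψ` is the Kummer character of `w` (w.r.t. `ζ`). -/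
def IsKummerChar (ζ : Ω) (F : IntermediateField k Ω) (ψ : ↥F.fixingSubgroup → ZMod p) (w : Ω) :
    Prop :=
  ∃ α : Ω, α ^ p = w ∧ IsKummerRoot ζ F ψ α

section zeta

variable (hζ : IsPrimitiveRoot ζ p)

instance neZero_p : NeZero p := ⟨(Fact.out : p.Prime).ne_zero⟩

include hζ in
lemma zeta_pow_val_add (a b : ZMod p) : ζ ^ (a + b).val = ζ ^ a.val * ζ ^ b.val := by
  rw [← zetaHom_apply hζ, ← zetaHom_apply hζ, ← zetaHom_apply hζ, map_add]
  rfl

include hζ in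
lemma zeta_pow_val_neg (a : ZMod p) : ζ ^ (-a).val * ζ ^ a.val = 1 := by
  rw [← zeta_pow_val_add hζ, neg_add_cancel, ZMod.val_zero, pow_zero]

include hζ in
lemma zeta_pow_val_mul (a b : ZMod p) : ζ ^ (a * b).val = (ζ ^ a.val) ^ b.val := by
  have h : a * b = b.val • a := by
    rw [nsmul_eq_mul, ZMod.natCast_zmod_val, mul_comm]
  rw [h, ← zetaHom_apply hζ, ← zetaHom_apply hζ, map_nsmul]
  rfl

include hζ in
lemma zeta_pow_val_inj {a b : ZMod p} (h : ζ ^ a.val = ζ ^ b.val) : a = b := by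
  apply zetaHom_injective hζ
  apply Additive.toMul.injective
  apply Units.ext
  rw [zetaHom_apply, zetaHom_apply, h]

include hζ in
lemma zeta_pow_val_eq_one_iff (a : ZMod p) : ζ ^ a.val = 1 ↔ a = 0 := by
  constructor
  · intro h
    exact zeta_pow_val_inj hζ (by rw [h, ZMod.val_zero, pow_zero])
  · rintro rfl
    rw [ZMod.val_zero, pow_zero]

end zeta

/-- `g` fixes `k(α)` iff it fixes `α`. -/
lemma mem_fixingSubgroup_adjoin_simple_iff (g : Ω ≃ₐ[k] Ω) (α : Ω) :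
    g ∈ (k⟮α⟯).fixingSubgroup ↔ g α = α := by
  rw [IntermediateField.mem_fixingSubgroup_iff]
  constructor
  · intro h
    exact h α (IntermediateField.mem_adjoin_simple_self k α)
  · intro h x hx
    have hle : k⟮α⟯ ≤ IntermediateField.fixedField (Subgroup.zpowers g) := by
      rw [IntermediateField.adjoin_simple_le_iff]
      rintro ⟨τ, hτ⟩
      have h1 : g ∈ MulAction.stabilizer (Ω ≃ₐ[k] Ω) α := MulAction.mem_stabilizer_iff.2 h
      have h2 := (Subgroup.zpowers_le.2 h1) hτ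
      exact MulAction.mem_stabilizer_iff.1 h2
    exact hle hx ⟨g, Subgroup.mem_zpowers g⟩

section basic

variable (hζ : IsPrimitiveRoot ζ p) {F : IntermediateField k Ω} (hζF : ζ ∈ F)

include hζF in
lemma apply_zeta (u : ↥F.fixingSubgroup) : (u : Ω ≃ₐ[k] Ω) ζ = ζ :=
  (IntermediateField.mem_fixingSubgroup_iff F u.1).1 u.2 ζ hζF

include hζ in
/-- `ker ψ` is the stabiliser of the Kummer root. -/
lemma IsKummerRoot.eq_zero_iff {ψ : ↥F.fixingSubgroup → ZMod p} {α : Ω}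
    (h : IsKummerRoot ζ F ψ α) (hα : α ≠ 0) (u : ↥F.fixingSubgroup) :
    ψ u = 0 ↔ (u : Ω ≃ₐ[k] Ω) α = α := by
  rw [h u, ← zeta_pow_val_eq_one_iff hζ]
  constructor
  · intro h1
    rw [h1, one_mul]
  · intro h1
    exact mul_right_cancel₀ hα (h1.trans (one_mul α).symm)

include hζ in
/-- `ker ψ_w = Gal(Ω / F(w^{1/p}))`. -/
lemma IsKummerRoot.mem_fixingSubgroup_iff {ψ : ↥F.fixingSubgroup → ZMod p} {α : Ω}
    (h : IsKummerRoot ζ F ψ α) (hα : α ≠ 0) (g : Ω ≃ₐ[k] Ω) :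
    g ∈ (F ⊔ k⟮α⟯).fixingSubgroup ↔ ∃ hg : g ∈ F.fixingSubgroup, ψ ⟨g, hg⟩ = 0 := by
  rw [IntermediateField.fixingSubgroup_sup, Subgroup.mem_inf]
  constructor
  · rintro ⟨hg, hgα⟩
    refine ⟨hg, (h.eq_zero_iff hζ hα ⟨g, hg⟩).2 ?_⟩
    exact (mem_fixingSubgroup_adjoin_simple_iff g α).1 hgα
  · rintro ⟨hg, hψ⟩
    refine ⟨hg, ?_⟩
    have hgα : g α = α := (h.eq_zero_iff hζ hα ⟨g, hg⟩).1 hψ
    exact (mem_fixingSubgroup_adjoin_simple_iff g α).2 hgα

include hζ hζF in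
/-- The Kummer character of `w ≠ 0` is unique. -/
theorem IsKummerChar.unique {ψ ψ' : ↥F.fixingSubgroup → ZMod p} {w : Ω} (hw : w ≠ 0)
    (h : IsKummerChar ζ F ψ w) (h' : IsKummerChar ζ F ψ' w) : ψ = ψ' := by
  obtain ⟨α, hα, hroot⟩ := h
  obtain ⟨α', hα', hroot'⟩ := h'
  have hα0 : α ≠ 0 := by
    rintro rfl
    rw [zero_pow (Fact.out : p.Prime).ne_zero] at hα
    exact hw hα.symm
  have hα'0 : α' ≠ 0 := by
    rintro rfl
    rw [zero_pow (Fact.out : p.Prime).ne_zero] at hα'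
    exact hw hα'.symm
  -- `α' = ζ^i α`
  have h1 : (α' / α) ^ p = 1 := by
    rw [div_pow, hα, hα', div_self hw]
  obtain ⟨i, -, hi⟩ := hζ.eq_pow_of_pow_eq_one h1
  have hα'eq : α' = ζ ^ i * α := by
    rw [hi, div_mul_cancel₀ _ hα0]
  funext u
  apply zeta_pow_val_inj hζ
  have h2 := hroot' u
  rw [hα'eq, map_mul, map_pow, apply_zeta hζF u, hroot u] at h2
  have h3 : ζ ^ (ψ u).val * (ζ ^ i * α) = ζ ^ (ψ' u).val * (ζ ^ i * α) := by
    rw [← h2]; ring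
  exact mul_right_cancel₀ (mul_ne_zero (pow_ne_zero _ (hζ.ne_zero (NeZero.ne p))) hα0) h3

include hζ in
/-- `w` is determined by its Kummer character up to `p`-th powers of `Fˣ`. -/
theorem IsKummerChar.exists_pow_eq {ψ : ↥F.fixingSubgroup → ZMod p} {w w' : Ω} (hw : w ≠ 0)
    (hw' : w' ≠ 0) (h : IsKummerChar ζ F ψ w) (h' : IsKummerChar ζ F ψ w') :
    ∃ t : Ω, t ∈ F ∧ t ≠ 0 ∧ w' = w * t ^ p := by
  obtain ⟨α, hα, hroot⟩ := h
  obtain ⟨α', hα', hroot'⟩ := h'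
  have hα0 : α ≠ 0 := by
    rintro rfl
    rw [zero_pow (Fact.out : p.Prime).ne_zero] at hα
    exact hw hα.symm
  have hα'0 : α' ≠ 0 := by
    rintro rfl
    rw [zero_pow (Fact.out : p.Prime).ne_zero] at hα'
    exact hw' hα'.symm
  refine ⟨α' / α, ?_, div_ne_zero hα'0 hα0, ?_⟩
  · rw [← forall_fixingSubgroup_apply_eq_iff F]
    intro σ hσ
    have h1 := hroot ⟨σ, hσ⟩
    have h2 := hroot' ⟨σ, hσ⟩
    change σ α = _ at h1
    change σ α' = _ at h2
    rw [map_div₀, h1, h2]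
    have hz : ζ ^ (ψ ⟨σ, hσ⟩).val ≠ 0 := pow_ne_zero _ (hζ.ne_zero (NeZero.ne p))
    field_simp
  · rw [div_pow, hα, hα', mul_div_cancel₀ _ hw]

include hζ in
theorem IsKummerChar.mul {ψ ψ' : ↥F.fixingSubgroup → ZMod p} {w w' : Ω}
    (h : IsKummerChar ζ F ψ w) (h' : IsKummerChar ζ F ψ' w') :
    IsKummerChar ζ F (ψ + ψ') (w * w') := by
  obtain ⟨α, hα, hroot⟩ := h
  obtain ⟨α', hα', hroot'⟩ := h'
  refine ⟨α * α', by rw [mul_pow, hα, hα'], fun u => ?_⟩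
  rw [map_mul, hroot u, hroot' u, Pi.add_apply, zeta_pow_val_add hζ]
  ring

include hζ in
theorem IsKummerChar.inv {ψ : ↥F.fixingSubgroup → ZMod p} {w : Ω}
    (h : IsKummerChar ζ F ψ w) : IsKummerChar ζ F (-ψ) w⁻¹ := by
  obtain ⟨α, hα, hroot⟩ := h
  refine ⟨α⁻¹, by rw [inv_pow, hα], fun u => ?_⟩
  rw [map_inv₀, hroot u, Pi.neg_apply, mul_inv]
  congr 1
  exact (eq_inv_of_mul_eq_one_left (zeta_pow_val_neg hζ (ψ u))).symm

/-- `p`-th powers of elements of `F` have trivial Kummer character. -/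
theorem isKummerChar_zero_pow {t : Ω} (ht : t ∈ F) :
    IsKummerChar ζ F (0 : ↥F.fixingSubgroup → ZMod p) (t ^ p) := by
  refine ⟨t, rfl, fun u => ?_⟩
  rw [Pi.zero_apply, ZMod.val_zero, pow_zero, one_mul]
  exact (IntermediateField.mem_fixingSubgroup_iff F u.1).1 u.2 t ht

end basic

section conj

variable (hζ : IsPrimitiveRoot ζ p) (F : IntermediateField k Ω) [IsGalois k F]

/-- Conjugation of an element of `Gal(Ω/F)` by `σ ∈ Gal(Ω/k)` (`F/k` Galois). -/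
def conjFix (σ : Ω ≃ₐ[k] Ω) (u : ↥F.fixingSubgroup) : ↥F.fixingSubgroup :=
  ⟨σ⁻¹ * u * σ, by
    have := (inferInstance : F.fixingSubgroup.Normal).conj_mem u u.2 σ⁻¹
    rwa [inv_inv] at this⟩

@[simp] lemma coe_conjFix (σ : Ω ≃ₐ[k] Ω) (u : ↥F.fixingSubgroup) :
    ((conjFix F σ u : ↥F.fixingSubgroup) : Ω ≃ₐ[k] Ω) = σ⁻¹ * u * σ := rfl

/-- **Galois equivariance of the Kummer correspondence**:
`ψ_{σ w}(u) = ω(σ) · ψ_w(σ⁻¹ u σ)`, `ω` the mod-`p` cyclotomic character (`σ ζ = ζ ^ ω(σ)`). -/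
theorem IsKummerChar.conj {ψ : ↥F.fixingSubgroup → ZMod p} {w : Ω}
    (h : IsKummerChar ζ F ψ w) (σ : Ω ≃ₐ[k] Ω) :
    IsKummerChar ζ F
      (fun u => ((hζ.autToPow k σ : (ZMod p)ˣ) : ZMod p) * ψ (conjFix F σ u)) (σ w) := by
  obtain ⟨α, hα, hroot⟩ := h
  refine ⟨σ α, by rw [← map_pow, hα], fun u => ?_⟩
  have h1 : (u : Ω ≃ₐ[k] Ω) (σ α) = σ (((conjFix F σ u : ↥F.fixingSubgroup) : Ω ≃ₐ[k] Ω) α) := by
    rw [coe_conjFix, AlgEquiv.mul_apply, AlgEquiv.mul_apply, ← AlgEquiv.mul_apply σ σ⁻¹,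
      mul_inv_cancel, AlgEquiv.one_apply]
  have hspec : ζ ^ ((hζ.autToPow k σ : (ZMod p)ˣ) : ZMod p).val = σ ζ := hζ.autToPow_spec k σ
  rw [h1, hroot (conjFix F σ u), map_mul, map_pow, ← hspec, zeta_pow_val_mul hζ]

end conj

section exist

variable (hζ : IsPrimitiveRoot ζ p) (L : LevelStructure (Ω ≃ₐ[k] Ω))
  (hGal : ∀ N, L.IsLevel N → ∃ F : IntermediateField k Ω,
    FiniteDimensional k F ∧ Normal k F ∧ N = F.fixingSubgroup)
  (hcof : ∀ E' : IntermediateField k Ω, FiniteDimensional k E' →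
    ∃ N, L.IsLevel N ∧ N ≤ E'.fixingSubgroup)
  (F : IntermediateField k Ω) [FiniteDimensional k F] (hζF : ζ ∈ F)

include hζ hGal hcof hζF in
/-- **Hilbert 90 / Kummer theory**: every LC character `Gal(Ω/F) → 𝔽_p` is the Kummer character of
some `w ∈ Fˣ`. -/
theorem exists_isKummerChar (ψ : LCSym.XChar (L.comap F.fixingSubgroup.subtype) p) :
    ∃ w : Ω, w ∈ F ∧ w ≠ 0 ∧ IsKummerChar ζ F (ψ : ↥F.fixingSubgroup → ZMod p) w := by
  have hsm := isSmooth_unitsRep L hcof F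
  -- the cocycle `u ↦ ζ ^ ψ(u)`
  have hcoc : (fun u : ↥F.fixingSubgroup => zetaHom hζ ((ψ : ↥F.fixingSubgroup → ZMod p) u)) ∈
      LC.Z₁ (L.comap F.fixingSubgroup.subtype) (unitsRep F) := by
    refine ⟨(mem_cocycles₁_iff _).2 fun g h => ?_, ?_⟩
    · change zetaHom hζ ((ψ : ↥F.fixingSubgroup → ZMod p) (g * h)) =
        (show Additive Ωˣ from
          (unitsRep F).ρ g (zetaHom hζ ((ψ : ↥F.fixingSubgroup → ZMod p) h))) +
          zetaHom hζ ((ψ : ↥F.fixingSubgroup → ZMod p) g)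
      rw [zetaHom_invariant F hζ hζF, LCSym.XChar.map_mul, map_add, add_comm]
    · obtain ⟨N, hN, h⟩ := ψ.2.2
      exact ⟨N, hN, fun g s hs => by
        change zetaHom hζ ((ψ : ↥F.fixingSubgroup → ZMod p) (g * s)) = _
        rw [h g s hs]⟩
  haveI := (galLayerDict L hGal hcof F).subsingleton_H1 hsm
  have h0 : LC.H1π (L.comap F.fixingSubgroup.subtype) (unitsRep F) ⟨_, hcoc⟩ = 0 :=
    Subsingleton.elim _ _
  rw [LC.H1π_eq_zero_iff] at h0
  obtain ⟨a', ha⟩ := h0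
  set a : Additive Ωˣ := a' with ha'
  set α : Ω := ((Additive.toMul a : Ωˣ) : Ω) with hαdef
  have hα0 : α ≠ 0 := (Additive.toMul a : Ωˣ).ne_zero
  have hroot : IsKummerRoot ζ F (ψ : ↥F.fixingSubgroup → ZMod p) α := by
    intro u
    have h1 := congrFun ha u
    rw [d₀₁_hom_apply] at h1
    have h2 : (show Additive Ωˣ from (unitsRep F).ρ u a) =
        zetaHom hζ ((ψ : ↥F.fixingSubgroup → ZMod p) u) + a := by
      have h1' : zetaHom hζ ((ψ : ↥F.fixingSubgroup → ZMod p) u) =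
          (show Additive Ωˣ from (unitsRep F).ρ u a) - a := h1.symm
      rw [h1']; abel
    have h3 := congrArg (fun y : Additive Ωˣ => ((Additive.toMul y : Ωˣ) : Ω)) h2
    have h4 : ((Additive.toMul ((unitsRep F).ρ u a : Additive Ωˣ) : Ωˣ) : Ω) =
        (u : Ω ≃ₐ[k] Ω) α := unitsRep_ρ_apply u a
    rw [← h4]
    refine h3.trans ?_
    change ((Additive.toMul (zetaHom hζ ((ψ : ↥F.fixingSubgroup → ZMod p) u)) : Ωˣ) : Ω) * α = _
    rw [zetaHom_apply]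
  refine ⟨α ^ p, ?_, pow_ne_zero _ hα0, α, rfl, hroot⟩
  rw [← forall_fixingSubgroup_apply_eq_iff F]
  intro σ hσ
  have := hroot ⟨σ, hσ⟩
  change σ α = _ at this
  rw [map_pow, this, mul_pow, ← pow_mul, mul_comm _ p, pow_mul, hζ.pow_eq_one, one_pow, one_mul]

include hζ hcof hζF in
/-- Every `w ∈ Fˣ` has a Kummer character (`Ω` algebraically closed). -/
theorem exists_xChar_isKummerChar [IsAlgClosed Ω] {w : Ω} (hwF : w ∈ F) (hw : w ≠ 0) :
    ∃ ψ : LCSym.XChar (L.comap F.fixingSubgroup.subtype) p,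
      IsKummerChar ζ F (ψ : ↥F.fixingSubgroup → ZMod p) w := by
  have hsm := isSmooth_unitsRep L hcof F
  obtain ⟨α, hα⟩ := IsAlgClosed.exists_pow_nat_eq w (Fact.out : p.Prime).pos
  have hα0 : α ≠ 0 := by
    rintro rfl
    rw [zero_pow (Fact.out : p.Prime).ne_zero] at hα
    exact hw hα.symm
  set a : Additive Ωˣ := Additive.ofMul (Units.mk0 α hα0) with ha
  have hinv : IsInv (unitsRep F) (p • a) := by
    intro g
    apply Additive.toMul.injective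
    apply Units.ext
    refine (unitsRep_ρ_apply g (p • a)).trans ?_
    change (g : Ω ≃ₐ[k] Ω) (α ^ p) = α ^ p
    rw [hα]
    exact (IntermediateField.mem_fixingSubgroup_iff F g.1).1 g.2 w hwF
  obtain ⟨f, hf⟩ := LCSym.exists_kummerChar (L := L.comap F.fixingSubgroup.subtype) hsm
    (zetaHom hζ) (zetaHom_injective hζ) (fun g z => zetaHom_invariant F hζ hζF g z)
    (fun c hc => zetaHom_surjective_torsion hζ c hc) a hinv
  refine ⟨f, α, hα, fun u => ?_⟩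
  have h1 := hf u
  have h2 : (show Additive Ωˣ from (unitsRep F).ρ u a) =
      zetaHom hζ ((f : ↥F.fixingSubgroup → ZMod p) u) + a := by
    have h1' : zetaHom hζ ((f : ↥F.fixingSubgroup → ZMod p) u) =
        (show Additive Ωˣ from (unitsRep F).ρ u a) - a := h1
    rw [h1']; abel
  have h3 := congrArg (fun y : Additive Ωˣ => ((Additive.toMul y : Ωˣ) : Ω)) h2
  have h4 : ((Additive.toMul ((unitsRep F).ρ u a : Additive Ωˣ) : Ωˣ) : Ω) =
      (u : Ω ≃ₐ[k] Ω) α := unitsRep_ρ_apply u a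
  rw [← h4]
  refine h3.trans ?_
  change ((Additive.toMul (zetaHom hζ ((f : ↥F.fixingSubgroup → ZMod p) u)) : Ωˣ) : Ω) * α = _
  rw [zetaHom_apply]

end exist

end Fermat.Agent.TW.LocFlat
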