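import Mathlib
import Fermat.Agent.CFT.LC.KummerPairing

/-!
# TW / LocFlat, dictionary (D1): restriction of `H¹` to an open normal subgroup acting trivially

`G` a group with level structure `L`, `U ⊴ G` a normal subgroup, `M : Rep K G` on which `U` acts
trivially.  Restriction of cocycles to `U` is well defined on classes:

* `resHom U hUM : LC.H1 L M →ₗ[K] (↥U → M)`, `resHom_H1π`;
* `resHom_mul` (the values are homomorphisms `U → M`), `resHom_conj` (`G`-equivariance
  `ψ (σ u σ⁻¹) = σ • ψ u`), `resHom_isLC`;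
* `resHom_injective`: injective when the index `[G : U]` is finite and invertible in `K`;
* `resChar U hUM lam c : LCSym.XChar (L.comap U.subtype) p`, the LC character `lam ∘ resHom c` of
  `U` for an additive `lam : M →+ ZMod p`; `resChar_apply`, `resChar_add`, `resChar_conj`.
-/

set_option autoImplicit false
set_option linter.unusedSectionVars false
set_option linter.style.haveILetI false

open CategoryTheory groupCohomology

namespace Fermat.Agent.TW.LocFlat

open Fermat.Agent.CFT

variable {K G : Type} [CommRing K] [Group G] {L : LevelStructure G} {M : Rep.{0} K G}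
  (U : Subgroup G) [U.Normal] (hUM : ∀ u ∈ U, ∀ m : M, M.ρ u m = m)

/-- Restriction of functions on `G` to `U`. -/
def resFun (M : Rep.{0} K G) (U : Subgroup G) : (G → M) →ₗ[K] (↥U → M) :=
  LinearMap.funLeft K M (Subtype.val : ↥U → G)

@[simp] lemma resFun_apply (f : G → M) (u : ↥U) : resFun M U f u = f u := rfl

include hUM in
lemma resFun_eq_zero_of_mem_B₁ {f : G → M} (hf : f ∈ LC.B₁ L M) : resFun M U f = 0 := by
  obtain ⟨m, rfl⟩ := hf
  funext u
  rw [resFun_apply, d₀₁_hom_apply, hUM u u.2, sub_self]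
  rfl

/-- **(D1-a)** Restriction of classes to `U` (well defined since `U` acts trivially). -/
noncomputable def resHom : LC.H1 L M →ₗ[K] (↥U → M) :=
  Submodule.liftQ _ ((resFun M U).comp (LC.Z₁ L M).subtype) (by
    intro z hz
    rw [Submodule.mem_comap] at hz
    rw [LinearMap.mem_ker, LinearMap.comp_apply]
    exact resFun_eq_zero_of_mem_B₁ U hUM hz)

@[simp] lemma resHom_H1π (z : ↥(LC.Z₁ L M)) (u : ↥U) :
    resHom U hUM (LC.H1π L M z) u = (z : G → M) u := rfl

lemma resHom_mul (c : LC.H1 L M) (u u' : ↥U) :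
    resHom U hUM c (u * u') = resHom U hUM c u + resHom U hUM c u' := by
  obtain ⟨z, rfl⟩ := Submodule.mkQ_surjective _ c
  change (z : G → M) ((u : G) * u') = (z : G → M) u + (z : G → M) u'
  rw [(mem_cocycles₁_iff (z : G → M)).1 z.2.1, hUM u u.2, add_comm]

/-- `G`-equivariance: `ψ (σ u σ⁻¹) = σ • ψ u`. -/
lemma resHom_conj (c : LC.H1 L M) (σ : G) (u : ↥U) :
    resHom U hUM c ⟨σ * u * σ⁻¹, (inferInstance : U.Normal).conj_mem u u.2 σ⟩ =
      M.ρ σ (resHom U hUM c u) := by
  obtain ⟨z, rfl⟩ := Submodule.mkQ_surjective _ c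
  change (z : G → M) (σ * u * σ⁻¹) = M.ρ σ ((z : G → M) u)
  have hz := (mem_cocycles₁_iff (z : G → M)).1 z.2.1
  have h1 : (z : G → M) (σ * σ⁻¹) = 0 := by
    rw [mul_inv_cancel]
    exact cocycles₁_map_one ⟨(z : G → M), z.2.1⟩
  rw [hz] at h1
  rw [mul_assoc, hz, hz, map_add, ← Module.End.mul_apply, ← map_mul]
  have h2 : M.ρ (σ * u) ((z : G → M) σ⁻¹) = M.ρ σ ((z : G → M) σ⁻¹) := by
    rw [map_mul, Module.End.mul_apply]
    have h3 : (u : G) = σ⁻¹ * (σ * u * σ⁻¹) * σ := by group
    have h4 : M.ρ σ (M.ρ (u : G) ((z : G → M) σ⁻¹)) =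
        M.ρ (σ * u * σ⁻¹) (M.ρ σ ((z : G → M) σ⁻¹)) := by
      rw [← Module.End.mul_apply, ← map_mul, ← Module.End.mul_apply, ← map_mul]
      congr 2
      group
    rw [h4, hUM _ ((inferInstance : U.Normal).conj_mem u u.2 σ)]
  rw [h2]
  have h5 : M.ρ σ ((z : G → M) σ⁻¹) = -(z : G → M) σ := eq_neg_of_add_eq_zero_left h1
  rw [h5]
  abel

lemma resHom_isLC (c : LC.H1 L M) :
    ∃ N, L.IsLevel N ∧ ∀ u s : ↥U, (s : G) ∈ N → resHom U hUM c (u * s) = resHom U hUM c u := by
  obtain ⟨z, rfl⟩ := Submodule.mkQ_surjective _ c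
  obtain ⟨N, hN, h⟩ := z.2.2
  exact ⟨N, hN, fun u s hs => h u s hs⟩

/-- **(D1-b)** Restriction to `U` is injective when `[G : U]` is finite and invertible in `K`. -/
theorem resHom_injective [U.FiniteIndex] (hidx : IsUnit ((U.index : ℕ) : K)) :
    Function.Injective (resHom (L := L) U hUM) := by
  classical
  rw [injective_iff_map_eq_zero]
  intro c hc
  obtain ⟨z, rfl⟩ := Submodule.mkQ_surjective _ c
  have hzU : ∀ u ∈ U, (z : G → M) u = 0 := fun u hu => congrFun hc ⟨u, hu⟩
  have hz := (mem_cocycles₁_iff (z : G → M)).1 z.2.1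
  -- `z` is right `U`-invariant
  have hinv : ∀ g : G, ∀ u ∈ U, (z : G → M) (g * u) = (z : G → M) g := by
    intro g u hu
    rw [hz, hzU u hu, map_zero, zero_add]
  haveI : Fintype (G ⧸ U) := Fintype.ofFinite _
  -- the function induced on `G ⧸ U`
  let zq : G ⧸ U → M := fun q => Quotient.liftOn' q (z : G → M) (fun a b hab => by
    have hab' : a⁻¹ * b ∈ U := QuotientGroup.leftRel_apply.mp hab
    have := hinv a (a⁻¹ * b) hab'
    rw [mul_inv_cancel_left] at this
    exact this.symm)
  have hzq : ∀ g : G, zq (g : G ⧸ U) = (z : G → M) g := fun g => rfl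
  set m₀ : M := ∑ q : G ⧸ U, zq q with hm₀
  have hsum : ∀ g : G, m₀ = (U.index : K) • (z : G → M) g + M.ρ g m₀ := by
    intro g
    have h1 : ∑ q : G ⧸ U, zq (g • q) = m₀ :=
      Fintype.sum_equiv (MulAction.toPerm g) _ _ (fun q => rfl)
    have h2 : ∀ q : G ⧸ U, zq (g • q) = (z : G → M) g + M.ρ g (zq q) := by
      intro q
      induction q using QuotientGroup.induction_on with
      | H r =>
        change zq ((g * r : G) : G ⧸ U) = _
        rw [hzq, hzq, hz, add_comm]
    have h3 : ∑ q : G ⧸ U, zq (g • q) = (U.index : K) • (z : G → M) g + M.ρ g m₀ := by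
      simp only [h2]
      rw [Finset.sum_add_distrib, Finset.sum_const, Finset.card_univ, ← map_sum,
        ← Nat.card_eq_fintype_card, Nat.cast_smul_eq_nsmul]
      rfl
    exact h1.symm.trans h3
  obtain ⟨v, hv⟩ := hidx.exists_left_inv
  rw [LC.H1π_eq_zero_iff]
  refine ⟨-(v • m₀), ?_⟩
  funext g
  rw [d₀₁_hom_apply]
  have h3 := hsum g
  have h4 : (z : G → M) g = v • ((U.index : K) • (z : G → M) g) := by
    rw [smul_smul, hv, one_smul]
  rw [h4, map_neg, map_smul]
  have h5 : (U.index : K) • (z : G → M) g = m₀ - M.ρ g m₀ := eq_sub_of_add_eq h3.symm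
  rw [h5, smul_sub]
  abel

section char

variable {p : ℕ}

/-- **(D1-c)** The LC character `lam ∘ (c|_U)` of `U`. -/
noncomputable def resChar (lam : M →+ ZMod p) (c : LC.H1 L M) :
    LCSym.XChar (L.comap U.subtype) p :=
  ⟨fun u => lam (resHom U hUM c u), by
    refine (mem_cocycles₁_iff (A := LCSym.FpRep ↥U p) _).2 fun g h => ?_
    change lam (resHom U hUM c (g * h)) = lam (resHom U hUM c h) + lam (resHom U hUM c g)
    rw [resHom_mul, map_add, add_comm], by
    obtain ⟨N, hN, h⟩ := resHom_isLC U hUM c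
    refine ⟨N.comap U.subtype, ⟨N, hN, rfl⟩, fun u s hs => ?_⟩
    change lam (resHom U hUM c (u * s)) = lam (resHom U hUM c u)
    rw [h u s hs]⟩

@[simp] lemma resChar_apply (lam : M →+ ZMod p) (c : LC.H1 L M) (u : ↥U) :
    (resChar U hUM lam c : ↥U → ZMod p) u = lam (resHom U hUM c u) := rfl

lemma resChar_add_left (lam lam' : M →+ ZMod p) (c : LC.H1 L M) :
    resChar U hUM (lam + lam') c = resChar U hUM lam c + resChar U hUM lam' c := rfl

lemma resChar_add_right (lam : M →+ ZMod p) (c c' : LC.H1 L M) :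
    resChar U hUM lam (c + c') = resChar U hUM lam c + resChar U hUM lam c' := by
  apply Subtype.ext
  funext u
  change lam (resHom U hUM (c + c') u) = lam (resHom U hUM c u) + lam (resHom U hUM c' u)
  rw [map_add, Pi.add_apply, map_add]

/-- `ψ_{c,λ}(σ⁻¹ u σ) = (λ ∘ σ⁻¹)(ψ_c u)`. -/
lemma resChar_conj (lam : M →+ ZMod p) (c : LC.H1 L M) (σ : G) (u : ↥U) :
    (resChar U hUM lam c : ↥U → ZMod p)
        ⟨σ⁻¹ * u * σ, by
          have := (inferInstance : U.Normal).conj_mem u u.2 σ⁻¹
          rwa [inv_inv] at this⟩ =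
      lam (M.ρ σ⁻¹ (resHom U hUM c u)) := by
  rw [resChar_apply, ← resHom_conj U hUM c σ⁻¹ u]
  have key : ∀ a b : ↥U, a = b → resHom U hUM c a = resHom U hUM c b := fun a b h => by rw [h]
  exact congrArg lam (key _ _ (Subtype.ext (by simp)))

end char

end Fermat.Agent.TW.LocFlat
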