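import Mathlib
import Fermat.Agent.CFT.PT.JSInst
import Fermat.Agent.TW.LocFlat.DictRes
import Fermat.Agent.TW.LocFlat.DictKummer

/-!
# TW / LocFlat, dictionary (D1) + (D2) assembled, and the instance over `ℚ_p`

`Ω/k` Galois with a level structure `L` of Galois type, `F/k` finite Galois containing a primitive
`p`-th root of unity `ζ`, `M : Rep K Gal(Ω/k)` on which `U = Gal(Ω/F)` acts trivially.

* `exists_isKummerChar_resChar`: for a class `c ∈ H¹(Gal(Ω/k), M)` and an additive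
  `lam : M →+ ZMod p` the character `ψ_{c,lam} = lam ∘ c|_U` is the Kummer character of some
  `w ∈ Fˣ`;
* `IsKummerChar.resChar_conj`: if `ψ_{c,lam} = ψ_w` then
  `ω(σ) · ψ_{c, lam ∘ σ⁻¹} = ψ_{σ w}` for `σ ∈ Gal(Ω/k)`;
* `padicLevel p`, `padic_hGal`, `padic_hcof`: the instance `k = ℚ_[p]`, `Ω = PadicAlgCl p`,
  `L = levelOf (localGaloisToGlobal p)` (the level structure of `S55`/`PT.local_duality`).
-/

set_option autoImplicit false
set_option linter.unusedSectionVars false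
set_option linter.style.haveILetI false

open CategoryTheory groupCohomology IntermediateField

namespace Fermat.Agent.TW.LocFlat

open Fermat.Agent.CFT Fermat.Agent.CFT.GaloisTower

section general

variable {k Ω : Type} [Field k] [Field Ω] [Algebra k Ω] [IsGalois k Ω]
  {p : ℕ} [Fact p.Prime] {ζ : Ω} (hζ : IsPrimitiveRoot ζ p)
  (L : LevelStructure (Ω ≃ₐ[k] Ω))
  (hGal : ∀ N, L.IsLevel N → ∃ F : IntermediateField k Ω,
    FiniteDimensional k F ∧ Normal k F ∧ N = F.fixingSubgroup)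
  (hcof : ∀ E' : IntermediateField k Ω, FiniteDimensional k E' →
    ∃ N, L.IsLevel N ∧ N ≤ E'.fixingSubgroup)
  (F : IntermediateField k Ω) [FiniteDimensional k F] [IsGalois k F] (hζF : ζ ∈ F)
  {K : Type} [CommRing K] {M : Rep.{0} K (Ω ≃ₐ[k] Ω)}
  (hUM : ∀ u ∈ F.fixingSubgroup, ∀ m : M, M.ρ u m = m)

include hζ hGal hcof hζF in
/-- **(D1) + (D2)**: the character `lam ∘ c|_{G_F}` of a class `c ∈ H¹(G_k, M)` is a Kummer
character `ψ_w`, `w ∈ Fˣ`. -/
theorem exists_isKummerChar_resChar (lam : M →+ ZMod p) (c : LC.H1 L M) :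
    ∃ w : Ω, w ∈ F ∧ w ≠ 0 ∧
      IsKummerChar ζ F (resChar F.fixingSubgroup hUM lam c : ↥F.fixingSubgroup → ZMod p) w :=
  exists_isKummerChar hζ L hGal hcof F hζF (resChar F.fixingSubgroup hUM lam c)

/-- **Equivariance of `(c, lam) ↦ w`**: if `lam ∘ c|_{G_F} = ψ_w` then
`ω(σ) · (lam ∘ σ⁻¹) ∘ c|_{G_F} = ψ_{σ w}`. -/
theorem IsKummerChar.resChar_conj {lam : M →+ ZMod p} {c : LC.H1 L M} {w : Ω}
    (h : IsKummerChar ζ F (resChar F.fixingSubgroup hUM lam c : ↥F.fixingSubgroup → ZMod p) w)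
    (σ : Ω ≃ₐ[k] Ω) :
    IsKummerChar ζ F
      (fun u => ((hζ.autToPow k σ : (ZMod p)ˣ) : ZMod p) *
        (resChar F.fixingSubgroup hUM (lam.comp (M.ρ σ⁻¹).toAddMonoidHom) c :
          ↥F.fixingSubgroup → ZMod p) u) (σ w) := by
  have h1 := h.conj hζ F σ
  have h2 : (fun u : ↥F.fixingSubgroup => ((hζ.autToPow k σ : (ZMod p)ˣ) : ZMod p) *
      (resChar F.fixingSubgroup hUM lam c : ↥F.fixingSubgroup → ZMod p) (conjFix F σ u)) =
      (fun u => ((hζ.autToPow k σ : (ZMod p)ˣ) : ZMod p) *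
        (resChar F.fixingSubgroup hUM (lam.comp (M.ρ σ⁻¹).toAddMonoidHom) c :
          ↥F.fixingSubgroup → ZMod p) u) := by
    funext u
    congr 1
    exact Fermat.Agent.TW.LocFlat.resChar_conj F.fixingSubgroup hUM lam c σ u
  rw [← h2]
  exact h1

end general

/-! ### The instance over `ℚ_p` -/

section padic

variable (p : ℕ) [Fact p.Prime]

/-- The level structure on `Gal(ℚ̄_p/ℚ_p)` used by `S55` and `PT.local_duality`. -/
noncomputable abbrev padicLevel : LevelStructure (PadicAlgCl p ≃ₐ[ℚ_[p]] PadicAlgCl p) :=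
  Fermat.Agent.S55.levelOf (localGaloisToGlobal p)

theorem padic_hGal : ∀ N, (padicLevel p).IsLevel N →
    ∃ F : IntermediateField ℚ_[p] (PadicAlgCl p),
      FiniteDimensional ℚ_[p] F ∧ Normal ℚ_[p] F ∧ N = F.fixingSubgroup :=
  fun N hN => Fermat.Agent.CFT.PT.levelOf_local_galoisType p N hN

theorem padic_hcof : ∀ E' : IntermediateField ℚ_[p] (PadicAlgCl p),
    FiniteDimensional ℚ_[p] E' → ∃ N, (padicLevel p).IsLevel N ∧ N ≤ E'.fixingSubgroup :=
  fun E' h => Fermat.Agent.CFT.PT.levelOf_local_cofinal p E' h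

end padic

end Fermat.Agent.TW.LocFlat
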