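import Mathlib
import Fermat.Agent.TW.LocalSpan
import Fermat.Agent.TW.LocFlat.Dict
import Fermat.Agent.TW.LocFlat.ActZ
import Fermat.Agent.TW.KumEigen.GoodOps

/-!
# S56 / LOC-flat, [GLUE]: the allowed classes `allowedH1 ⊆ H¹(G_v, ad⁰ρbar)` and their count

`v : Nat.Primes` the residue characteristic, `D` a tame datum (`KumEigen.TameData`) over `ℚ_v`.

* `allowedZ ρbar v D`: the `k`-span of the LC `1`-cocycles `ξ` of
  `Rep.res (primeLocalToGlobal v) (ad0Rep ρbar)` with `KumEigen.Allowed D ξ`;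
* `allowedH1 ρbar v D`: its image in `H1v ρbar v` (`LC.H1`); `H1π_mem_allowedH1` is literally
  the hypothesis `hW` of `localTanSpan_le_of_allowed` (helper25, `TW/LocFlat/SpanLe.lean`);
* `isGood_of_mem_allowedZ`: every element of `allowedZ` is a good cocycle (`KumEigen.IsGood`):
  Kummer radicals exist by the dictionary (helper14, `TW/LocFlat/Dict.lean`), sums and scalar
  multiples by `KumEigen.IsGood.add/comp`;
* `MainOut p`: the contract of the eigenspace count (helper20's `finrank_range_le_one`, with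
  finiteness); `SSOps ρbar v D`: the operator hypotheses of the supersingular shape (F4-ss);
* `finrank_allowedH1_le_one`: `MainOut` + `SSOps` ⇒ `allowedH1` is finite of `k`-rank `≤ 1`.
-/

set_option autoImplicit false
set_option linter.unusedSectionVars false
set_option linter.style.haveILetI false

namespace Fermat.Agent.TW.LocFlat

open IsLocalRing ExtCitation Fermat.Agent.S55 Fermat.Agent.CFT Fermat.Agent.TW.Ad0
  Fermat.Agent.TW.LocalSpan Fermat.Agent.TW.KumEigen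

/-- **Contract of the eigenspace count** (helper20's MAIN, `finrank_range_le_one`, together with
finiteness of the range). -/
def MainOut (p : ℕ) [Fact p.Prime] : Prop :=
  ∀ (D : TameData p ℚ_[p] (PadicAlgCl p)) {M : Type} [AddCommGroup M] {k : Type} [Field k]
    [Finite k] [Module k M] [Finite M] (_hp2 : p ≠ 2) (_hpM : ∀ x : M, p • x = 0)
    (act : (PadicAlgCl p ≃ₐ[ℚ_[p]] PadicAlgCl p) →* Module.End ℤ M)
    (_hact : ∀ g (a : k) (x : M), act g (a • x) = a • act g x) (_hH : ∀ σ ∈ D.H, act σ = 1)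
    (M₀ M₁ : Submodule k M) (_hc : IsCompl M₀ M₁) (_h₀s : ∀ g, ∀ x ∈ M₀, act g x ∈ M₀)
    (_h₁s : ∀ g, ∀ x ∈ M₁, act g x ∈ M₁) (_hτ₀ : ∀ x ∈ M₀, act D.τ x = x)
    (_hinv₀ : ∀ x ∈ M₀, (∀ g, act g x = x) → x = 0) (_hcard₁ : Nat.card M₁ = Nat.card k ^ 2)
    (_hτ₁ : ∀ x ∈ M₁, (act D.τ ^ ((p + 1) / 2)) x = -x)
    (_hdich : (∀ x ∈ M₁, act D.τ x = -x) ∨ (∀ x ∈ M₁, act D.τ x = -x → x = 0))
    (Z : Submodule k ((PadicAlgCl p ≃ₐ[ℚ_[p]] PadicAlgCl p) → M))
    (_hZ : ∀ ξ ∈ Z, IsGood D act ξ)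
    {W : Type} [AddCommGroup W] [Module k W] (f : Z →ₗ[k] W)
    (_hf : ∀ ξ : Z, (∀ σ ∈ D.H, ξ.1 σ = 0) → f ξ = 0),
    Finite ↥(LinearMap.range f) ∧ Module.finrank k ↥(LinearMap.range f) ≤ 1

variable {𝒪 : Type} [CommRing 𝒪] [IsLocalRing 𝒪]

local notation "kk" => ResidueField 𝒪

section Defs

variable (ρbar : ResidualGaloisRep (ResidueField 𝒪)) (v : Nat.Primes)

/-- The local adjoint representation `ad⁰ρbar|G_v`. -/
noncomputable abbrev adV : Rep kk (primeLocalGaloisGroup v) :=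
  Rep.res (primeLocalToGlobal v) (ad0Rep ρbar)

/-- The level structure of `G_v`. -/
noncomputable abbrev levV : LevelStructure (primeLocalGaloisGroup v) :=
  levelOf (primeLocalToGlobal v)

variable (D : letI : Fact (v : ℕ).Prime := ⟨v.2⟩
  TameData (v : ℕ) ℚ_[(v : ℕ)] (PadicAlgCl (v : ℕ)))

/-- The `k`-span of the allowed LC cocycles. -/
noncomputable def allowedZ : Submodule kk (primeLocalGaloisGroup v → adV ρbar v) :=
  Submodule.span kk {ξ | ξ ∈ LC.Z₁ (levV v) (adV ρbar v) ∧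
    Allowed D (fun τ => (ξ τ : (ad0Rep ρbar)))}

theorem allowedZ_le : allowedZ ρbar v D ≤ LC.Z₁ (levV v) (adV ρbar v) :=
  Submodule.span_le.mpr fun _ h => h.1

/-- **The allowed classes.** -/
noncomputable def allowedH1 : Submodule kk (H1v ρbar v) :=
  LinearMap.range ((LC.H1π (levV v) (adV ρbar v)).comp
    (Submodule.inclusion (allowedZ_le ρbar v D)))

/-- The class of an allowed LC cocycle is an allowed class (literally the hypothesis `hW` of
`localTanSpan_le_of_allowed`). -/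
theorem H1π_mem_allowedH1
    (ξ : ↥(LC.Z₁ (levelOf (primeLocalToGlobal v))
        (Rep.res (primeLocalToGlobal v) (ad0Rep ρbar))))
    (h : Allowed D (fun τ => (ξ.1 τ : (ad0Rep ρbar)))) :
    LC.H1π (levelOf (primeLocalToGlobal v)) (Rep.res (primeLocalToGlobal v) (ad0Rep ρbar)) ξ ∈
      allowedH1 ρbar v D := by
  have hmem : ξ.1 ∈ allowedZ ρbar v D := Submodule.subset_span ⟨ξ.2, h⟩
  exact ⟨⟨ξ.1, hmem⟩, rfl⟩

end Defs

section Good

variable (ρbar : ResidualGaloisRep (ResidueField 𝒪)) (v : Nat.Primes)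
  (D : letI : Fact (v : ℕ).Prime := ⟨v.2⟩
    TameData (v : ℕ) ℚ_[(v : ℕ)] (PadicAlgCl (v : ℕ)))
  (F : letI : Fact (v : ℕ).Prime := ⟨v.2⟩
    IntermediateField ℚ_[(v : ℕ)] (PadicAlgCl (v : ℕ)))

/-- Kummer radicals of an LC cocycle exist (dictionary (D1)+(D2)). -/
theorem exists_mem_radRel_of_mem_Z₁
    (hDH : D.H = F.fixingSubgroup)
    (hFfin : letI : Fact (v : ℕ).Prime := ⟨v.2⟩; FiniteDimensional ℚ_[(v : ℕ)] F)
    (hFgal : letI : Fact (v : ℕ).Prime := ⟨v.2⟩; IsGalois ℚ_[(v : ℕ)] F)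
    (hζF : D.ζp ∈ F)
    (hH : ∀ σ ∈ D.H, repActZ (adV ρbar v) σ = 1)
    {ξ : primeLocalGaloisGroup v → adV ρbar v} (hξ : ξ ∈ LC.Z₁ (levV v) (adV ρbar v))
    (lam : (adV ρbar v) →+ ZMod (v : ℕ)) :
    ∃ b : Additive (PadicAlgCl (v : ℕ))ˣ, (lam, b) ∈ radRel D ξ := by
  haveI : Fact (v : ℕ).Prime := ⟨v.2⟩
  haveI := hFfin
  haveI := hFgal
  have hUM : ∀ u ∈ F.fixingSubgroup, ∀ m : adV ρbar v, (adV ρbar v).ρ u m = m := by
    intro u hu m
    have h1 := hH u (hDH ▸ hu)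
    have h2 := congrArg (fun f : Module.End ℤ (adV ρbar v) => f m) h1
    exact h2
  obtain ⟨w, -, hw0, α, hαw, hα⟩ :=
    exists_isKummerChar_resChar (k := ℚ_[(v : ℕ)]) (Ω := PadicAlgCl (v : ℕ)) D.hζp
      (padicLevel (v : ℕ)) (padic_hGal (v : ℕ)) (padic_hcof (v : ℕ)) F hζF
      (M := adV ρbar v) hUM lam (LC.H1π (levV v) (adV ρbar v) ⟨ξ, hξ⟩)
  have hα0 : α ≠ 0 := by
    rintro rfl
    rw [zero_pow (Fact.out : (v : ℕ).Prime).ne_zero] at hαw
    exact hw0 hαw.symm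
  refine ⟨Additive.ofMul (Units.mk0 α hα0), (mem_radRel_iff_isRadical D ξ lam _).mpr ⟨hα0, ?_⟩⟩
  intro σ hσ
  have hσ' : σ ∈ F.fixingSubgroup := hDH ▸ hσ
  exact hα ⟨σ, hσ'⟩

/-- **Every element of `allowedZ` is a good cocycle.** -/
theorem isGood_of_mem_allowedZ
    (hDH : D.H = F.fixingSubgroup)
    (hFfin : letI : Fact (v : ℕ).Prime := ⟨v.2⟩; FiniteDimensional ℚ_[(v : ℕ)] F)
    (hFgal : letI : Fact (v : ℕ).Prime := ⟨v.2⟩; IsGalois ℚ_[(v : ℕ)] F)
    (hζF : D.ζp ∈ F)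
    (hH : ∀ σ ∈ D.H, repActZ (adV ρbar v) σ = 1)
    {ξ : primeLocalGaloisGroup v → adV ρbar v} (hξ : ξ ∈ allowedZ ρbar v D) :
    letI : Fact (v : ℕ).Prime := ⟨v.2⟩
    IsGood D (repActZ (adV ρbar v)) ξ := by
  haveI : Fact (v : ℕ).Prime := ⟨v.2⟩
  induction hξ using Submodule.span_induction with
  | mem ξ h =>
    obtain ⟨hZ, hall⟩ := h
    refine ⟨fun g h => ?_, fun lam => ?_, hall⟩
    · exact (groupCohomology.mem_cocycles₁_iff ξ).1 hZ.1 g h
    · exact exists_mem_radRel_of_mem_Z₁ ρbar v D F hDH hFfin hFgal hζF hH hZ lam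
  | zero => exact IsGood.zero D (repActZ (adV ρbar v))
  | add ξ ξ' _ _ h h' => exact IsGood.add D (repActZ (adV ρbar v)) h h'
  | smul a ξ _ h =>
    exact IsGood.comp D (repActZ (adV ρbar v)) (repActZ (adV ρbar v))
      (DistribSMul.toAddMonoidHom (adV ρbar v) a)
      (fun g x => (repActZ_smul (adV ρbar v) g a x).symm) h

/-- A class of `allowedH1` whose cocycle vanishes on `H` is zero (restriction to `H` is injective:
the index of `H` is prime to the characteristic). -/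
theorem H1π_eq_zero_of_forall_mem_H [CharP (ResidueField 𝒪) (v : ℕ)]
    (hfi : D.H.FiniteIndex) (hidx : ¬ (v : ℕ) ∣ D.H.index)
    (hH : ∀ σ ∈ D.H, repActZ (adV ρbar v) σ = 1)
    (ξ : ↥(LC.Z₁ (levV v) (adV ρbar v))) (h : ∀ σ ∈ D.H, ξ.1 σ = 0) :
    LC.H1π (levV v) (adV ρbar v) ξ = 0 := by
  haveI : Fact (v : ℕ).Prime := ⟨v.2⟩
  let U : Subgroup (primeLocalGaloisGroup v) := D.H
  haveI : U.Normal := D.normal
  haveI : U.FiniteIndex := hfi
  have hUM : ∀ u ∈ U, ∀ m : adV ρbar v, (adV ρbar v).ρ u m = m := by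
    intro u hu m
    have h1 := hH u hu
    exact congrArg (fun f : Module.End ℤ (adV ρbar v) => f m) h1
  have hunit : IsUnit ((U.index : ℕ) : ResidueField 𝒪) := by
    rw [isUnit_iff_ne_zero]
    intro h0
    exact hidx ((CharP.cast_eq_zero_iff (ResidueField 𝒪) (v : ℕ) _).mp h0)
  apply resHom_injective (L := levV v) (M := adV ρbar v) U hUM hunit
  rw [map_zero]
  funext u
  rw [resHom_H1π]
  exact h (u : primeLocalGaloisGroup v) u.2

end Good

section Count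

variable (ρbar : ResidualGaloisRep (ResidueField 𝒪)) (v : Nat.Primes)
  (D : letI : Fact (v : ℕ).Prime := ⟨v.2⟩
    TameData (v : ℕ) ℚ_[(v : ℕ)] (PadicAlgCl (v : ℕ)))
  (F : letI : Fact (v : ℕ).Prime := ⟨v.2⟩
    IntermediateField ℚ_[(v : ℕ)] (PadicAlgCl (v : ℕ)))

/-- **The operator hypotheses of the supersingular shape** (output of F4-ss + the `ad⁰` linear
algebra), literally the hypotheses `hH … hdich` of the eigenspace count for
`M = ad⁰ρbar|G_v`, `act = repActZ`. -/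
structure SSOps : Prop where
  hH : ∀ σ ∈ D.H, repActZ (adV ρbar v) σ = 1
  decomp : ∃ M₀ M₁ : Submodule (ResidueField 𝒪) (adV ρbar v), IsCompl M₀ M₁ ∧
    (∀ g, ∀ x ∈ M₀, repActZ (adV ρbar v) g x ∈ M₀) ∧
    (∀ g, ∀ x ∈ M₁, repActZ (adV ρbar v) g x ∈ M₁) ∧
    (∀ x ∈ M₀, repActZ (adV ρbar v) D.τ x = x) ∧
    (∀ x ∈ M₀, (∀ g, repActZ (adV ρbar v) g x = x) → x = 0) ∧
    Nat.card M₁ = Nat.card (ResidueField 𝒪) ^ 2 ∧
    (∀ x ∈ M₁, (repActZ (adV ρbar v) D.τ ^ (((v : ℕ) + 1) / 2)) x = -x) ∧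
    ((∀ x ∈ M₁, repActZ (adV ρbar v) D.τ x = -x) ∨
      (∀ x ∈ M₁, repActZ (adV ρbar v) D.τ x = -x → x = 0))

/-- **[GLUE]**: under the contract `MainOut` of the eigenspace count and the operator hypotheses
`SSOps`, the allowed classes form a finite `k`-space of rank `≤ 1`. -/
theorem allowedH1_finite_and_finrank_le_one [Finite (ResidueField 𝒪)]
    [CharP (ResidueField 𝒪) (v : ℕ)] (hv2 : (v : ℕ) ≠ 2)
    (hMAIN : letI : Fact (v : ℕ).Prime := ⟨v.2⟩; MainOut (v : ℕ))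
    (hDH : D.H = F.fixingSubgroup)
    (hFfin : letI : Fact (v : ℕ).Prime := ⟨v.2⟩; FiniteDimensional ℚ_[(v : ℕ)] F)
    (hFgal : letI : Fact (v : ℕ).Prime := ⟨v.2⟩; IsGalois ℚ_[(v : ℕ)] F)
    (hζF : D.ζp ∈ F) (hfi : D.H.FiniteIndex) (hidx : ¬ (v : ℕ) ∣ D.H.index)
    (hops : SSOps ρbar v D) :
    Finite ↥(allowedH1 ρbar v D) ∧
      Module.finrank (ResidueField 𝒪) ↥(allowedH1 ρbar v D) ≤ 1 := by
  haveI : Fact (v : ℕ).Prime := ⟨v.2⟩
  obtain ⟨hH, M₀, M₁, hc, h₀s, h₁s, hτ₀, hinv₀, hcard₁, hτ₁, hdich⟩ := hops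
  haveI : Finite (adV ρbar v) :=
    Module.finite_of_finite (ResidueField 𝒪) (M := Fermat.Agent.TW.Ad0.sl ρbar)
  have hpM : ∀ x : adV ρbar v, (v : ℕ) • x = 0 := by
    intro x
    rw [← Nat.cast_smul_eq_nsmul (ResidueField 𝒪), CharP.cast_eq_zero, zero_smul]
  let f : ↥(allowedZ ρbar v D) →ₗ[ResidueField 𝒪] H1v ρbar v :=
    (LC.H1π (levV v) (adV ρbar v)).comp (Submodule.inclusion (allowedZ_le ρbar v D))
  exact hMAIN D (M := adV ρbar v) (k := ResidueField 𝒪) hv2 hpM (repActZ (adV ρbar v))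
    (fun g a x => repActZ_smul (adV ρbar v) g a x) hH M₀ M₁ hc h₀s h₁s hτ₀ hinv₀ hcard₁ hτ₁ hdich
    (allowedZ ρbar v D)
    (fun ξ hξ => isGood_of_mem_allowedZ ρbar v D F hDH hFfin hFgal hζF hH hξ)
    (W := H1v ρbar v) f
    (fun ξ h => H1π_eq_zero_of_forall_mem_H ρbar v D hfi hidx hH _ h)

end Count

end Fermat.Agent.TW.LocFlat
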