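import Mathlib
import Fermat.Agent.TW.LocFlat.AllowedOfFlat
import Fermat.Agent.TW.LocalSpan
import Fermat.Agent.TW.Sel.EquivInv

/-!
# S56 / LOC-flat: the local tangent span at `p` of a flat condition lies in every submodule
containing the classes of the `Allowed` cocycles

`v : Nat.Primes` is the residue characteristic.  If `𝒟` implies "cyclotomic determinant and flat at
`v`" for deformations to `k[ε]`, then `localTanSpan ρbar 𝒟 T v ≤ W` for every `k`-submodule `W` of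
`H¹(G_v, ad⁰ρbar)` (LC language) containing the classes of the LC cocycles `ξ` with
`KumEigen.Allowed D ξ` (helper20's `allowedH1` is such a `W`).  Input: the seam contract
`A5FieldOut` (helper2's (A5-field)).
-/

set_option autoImplicit false
set_option linter.unusedSectionVars false
set_option linter.style.haveILetI false

namespace Fermat.Agent.TW.LocFlat

open IsLocalRing ExtCitation Fermat.Agent.S55 Fermat.Agent.CFT Fermat.Agent.TW.Ad0
  Fermat.Agent.TW.Sel Fermat.Agent.TW.Contracts Fermat.Agent.TW.LocalSpan Fermat.Agent.TW.KumEigen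
  Fermat.Agent.S53

variable {𝒪 : Type} [CommRing 𝒪] [IsLocalRing 𝒪]

local notation "kk" => ResidueField 𝒪

/-- **Flat tangent classes are allowed classes.** -/
theorem localTanSpan_le_of_allowed (v : Nat.Primes)
    [CharP kk (v : ℕ)] [Finite kk]
    (hA5 : letI : Fact (v : ℕ).Prime := ⟨v.2⟩; A5FieldOut (v : ℕ))
    (D : letI : Fact (v : ℕ).Prime := ⟨v.2⟩
      TameData (v : ℕ) ℚ_[(v : ℕ)] (PadicAlgCl (v : ℕ)))
    (F : letI : Fact (v : ℕ).Prime := ⟨v.2⟩
      IntermediateField ℚ_[(v : ℕ)] (PadicAlgCl (v : ℕ)))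
    (hDH : D.H = F.fixingSubgroup)
    (ρbar : ResidualGaloisRep kk) (𝒟 : Cond 𝒪)
    (h𝒟 : letI : Algebra 𝒪 (DualNumber kk) := dualNumberAlgebra 𝒪
      ∀ ρ : GaloisRepAdic (DualNumber kk), 𝒟 ρ → ρ.DetIsCyclotomic (v : ℕ) ∧ ρ.IsFlatAt (v : ℕ))
    (T : Finset Nat.Primes) (W : Submodule kk (H1v ρbar v))
    (hW : ∀ ξ : ↥(LC.Z₁ (levelOf (primeLocalToGlobal v))
        (Rep.res (primeLocalToGlobal v) (ad0Rep ρbar))),
      Allowed D (fun τ => (ξ.1 τ : (ad0Rep ρbar))) →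
        LC.H1π (levelOf (primeLocalToGlobal v)) (Rep.res (primeLocalToGlobal v) (ad0Rep ρbar)) ξ ∈ W) :
    localTanSpan ρbar 𝒟 T v ≤ W := by
  haveI : Fact (v : ℕ).Prime := ⟨v.2⟩
  letI : Algebra 𝒪 (DualNumber kk) := dualNumberAlgebra 𝒪
  apply Submodule.span_le.mpr
  rintro _ ⟨x, ⟨ρ, hρ, r, hr, Lf, hL, hZ, rfl⟩, rfl⟩
  obtain ⟨hdet, hflat⟩ := h𝒟 ρ hρ
  have hr' : ρ.IsEquiv r.toAdic := by
    obtain ⟨e⟩ := hr
    exact ⟨e.symm⟩
  have hflat' : r.toAdic.IsFlatAt (v : ℕ) := isFlatAt_of_isEquiv hr' hflat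
  have hdet' : r.toAdic.DetIsCyclotomic (v : ℕ) := detIsCyclotomic_of_isEquiv hr' hdet
  have hall := allowed_of_flat (v : ℕ) hA5 D F hDH r hflat' hdet' Lf hL
  unfold resV
  rw [SetLike.mem_coe, lcResH1_mk]
  exact hW _ hall

end Fermat.Agent.TW.LocFlat
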