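import Mathlib
import Fermat.Agent.TW.LocFlat.AllowedH1
import Fermat.Agent.TW.LocFlat.SpanLe

/-!
# S56 / LOC-flat, supersingular case: `LocBound ρbar 𝒟 T v 1` from the blocks

Inputs: the seam contract `A5FieldOut` (helper2), the eigenspace count contract `MainOut`
(helper20), a tame datum `D` with `D.H = Gal(Ω/F)`, `F/ℚ_v` finite Galois containing `ζ_p`, of
index prime to `v` (helper10's K1 bridge), and the operator hypotheses `SSOps` of the supersingular
shape (F4-ss + `ad⁰` linear algebra).  Output: the local tangent span of a condition implying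
"cyclotomic determinant and flat at `v`" has dimension `≤ 1 ≤ h⁰ + 1`.
-/

set_option autoImplicit false
set_option linter.unusedSectionVars false
set_option linter.style.haveILetI false

namespace Fermat.Agent.TW.LocFlat

open IsLocalRing ExtCitation Fermat.Agent.S55 Fermat.Agent.CFT Fermat.Agent.TW.Ad0
  Fermat.Agent.TW.Contracts Fermat.Agent.TW.LocalSpan Fermat.Agent.TW.KumEigen

variable {𝒪 : Type} [CommRing 𝒪] [IsLocalRing 𝒪]

local notation "kk" => ResidueField 𝒪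

/-- **LOC-flat, supersingular case.** -/
theorem locBound_flat_ss (v : Nat.Primes) [CharP kk (v : ℕ)] [Finite kk] (hv2 : (v : ℕ) ≠ 2)
    (hA5 : letI : Fact (v : ℕ).Prime := ⟨v.2⟩; A5FieldOut (v : ℕ))
    (hMAIN : letI : Fact (v : ℕ).Prime := ⟨v.2⟩; MainOut (v : ℕ))
    (D : letI : Fact (v : ℕ).Prime := ⟨v.2⟩
      TameData (v : ℕ) ℚ_[(v : ℕ)] (PadicAlgCl (v : ℕ)))
    (F : letI : Fact (v : ℕ).Prime := ⟨v.2⟩
      IntermediateField ℚ_[(v : ℕ)] (PadicAlgCl (v : ℕ)))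
    (hDH : D.H = F.fixingSubgroup)
    (hFfin : letI : Fact (v : ℕ).Prime := ⟨v.2⟩; FiniteDimensional ℚ_[(v : ℕ)] F)
    (hFgal : letI : Fact (v : ℕ).Prime := ⟨v.2⟩; IsGalois ℚ_[(v : ℕ)] F)
    (hζF : D.ζp ∈ F) (hfi : D.H.FiniteIndex) (hidx : ¬ (v : ℕ) ∣ D.H.index)
    (ρbar : ResidualGaloisRep kk) (𝒟 : Cond 𝒪)
    (h𝒟 : letI : Algebra 𝒪 (DualNumber kk) := dualNumberAlgebra 𝒪
      ∀ ρ : GaloisRepAdic (DualNumber kk), 𝒟 ρ → ρ.DetIsCyclotomic (v : ℕ) ∧ ρ.IsFlatAt (v : ℕ))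
    (T : Finset Nat.Primes) (hops : SSOps ρbar v D) :
    LocBound ρbar 𝒟 T v 1 := by
  have hle : localTanSpan ρbar 𝒟 T v ≤ allowedH1 ρbar v D :=
    localTanSpan_le_of_allowed v hA5 D F hDH ρbar 𝒟 h𝒟 T (allowedH1 ρbar v D)
      (fun ξ h => H1π_mem_allowedH1 ρbar v D ξ h)
  obtain ⟨hfin, hrank⟩ := allowedH1_finite_and_finrank_le_one ρbar v D F hv2 hMAIN hDH hFfin hFgal
    hζF hfi hidx hops
  haveI := hfin
  haveI : FiniteDimensional kk ↥(allowedH1 ρbar v D) := Module.Finite.of_finite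
  have hfd : FiniteDimensional kk (localTanSpan ρbar 𝒟 T v) :=
    Submodule.finiteDimensional_of_le hle
  refine ⟨hfd, ?_⟩
  calc Module.finrank kk (localTanSpan ρbar 𝒟 T v)
      ≤ Module.finrank kk ↥(allowedH1 ρbar v D) := Submodule.finrank_mono hle
    _ ≤ 1 := hrank
    _ ≤ _ := Nat.le_add_left 1 _

end Fermat.Agent.TW.LocFlat
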