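import Mathlib
import Fermat.Agent.TW.LocalSpan
import Fermat.Agent.TW.Bridge.ShapeLocalMain

/-!
# S56 / LOC-flat: the local bound at `p` for a flat deformation condition (top-level case split)

`𝒟` a deformation condition implying "cyclotomic determinant and flat at `p`" on `k[ε]`.  Then
`dim_k L_p ≤ h⁰(G_p, ad⁰ρbar) + 1`, `L_p = localTanSpan ρbar 𝒟 T p`.

Case split (helper28's `shape_at_p`, helper9's local form `local_shape_at_p`): `ρbar|G_p` has a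
stable line (ORD branch, contract `OrdBranchOut`) or is of level two for EVERY choice of
`π, ζ ∈ PadicAlgCl p` (SS branch, contract `SSBranchOut`).
-/

set_option autoImplicit false
set_option linter.unusedSectionVars false
set_option linter.style.haveILetI false

namespace Fermat.Agent.TW.LocFlat

open IsLocalRing Polynomial Fermat.Agent.TW.Contracts Fermat.Agent.TW.LocalSpan
  Fermat.Agent.TW.Bridge.ShapeLocalMain

local notation "GQ" => (AlgebraicClosure ℚ ≃ₐ[ℚ] AlgebraicClosure ℚ)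

variable (𝒪 : Type) [CommRing 𝒪] [IsLocalRing 𝒪]

local notation "kk" => ResidueField 𝒪

/-- "`𝒟` implies cyclotomic determinant and flatness at `p` on the dual numbers". -/
def ImpliesFlat (p : ℕ) (𝒟 : Cond 𝒪) : Prop :=
  letI : Algebra 𝒪 (DualNumber kk) := dualNumberAlgebra 𝒪
  ∀ ρ : GaloisRepAdic (DualNumber kk), 𝒟 ρ → ρ.DetIsCyclotomic p ∧ ρ.IsFlatAt p

/-- **Contract of the ORD branch** (`ρbar|G_p` reducible). -/
def OrdBranchOut (p : ℕ) [hp : Fact p.Prime] : Prop :=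
  ∀ (ρbar : ResidualGaloisRep kk) (𝒟 : Cond 𝒪), ImpliesFlat 𝒪 p 𝒟 → ∀ T : Finset Nat.Primes,
    (∃ ℓ : Submodule kk ρbar.V, Module.finrank kk ℓ = 1 ∧
      ∀ σ : PadicAlgCl p ≃ₐ[ℚ_[p]] PadicAlgCl p, ∀ v ∈ ℓ,
        ρbar.ρ (localGaloisToGlobal p σ) v ∈ ℓ) →
    LocBound ρbar 𝒟 T ⟨p, hp.out⟩ 1

/-- **Contract of the SS branch** (`ρbar|G_p` of level two). -/
def SSBranchOut (p : ℕ) [hp : Fact p.Prime] : Prop :=
  ∀ (ρbar : ResidualGaloisRep kk) (𝒟 : Cond 𝒪), ImpliesFlat 𝒪 p 𝒟 → ∀ T : Finset Nat.Primes,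
    (∀ π ζ : PadicAlgCl p, π ^ (p ^ 2 - 1) = -(p : PadicAlgCl p) →
      IsPrimitiveRoot ζ (p ^ 2 - 1) → IsLocalLevelTwoExt ρbar p π ζ) →
    LocBound ρbar 𝒟 T ⟨p, hp.out⟩ 1

variable {𝒪}

/-- **LOC-flat**: `dim L_p ≤ h⁰_p + 1` for a flat condition, from the two branches. -/
theorem locBound_flat_of_branches {p : ℕ} [hp : Fact p.Prime] (hp2 : p ≠ 2)
    [CharP kk p] [Finite kk] (hOrd : OrdBranchOut 𝒪 p) (hSS : SSBranchOut 𝒪 p)
    (ρbar : ResidualGaloisRep kk)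
    (hdet : (GaloisRepAdic.ofResidualGaloisRep ρbar).DetIsCyclotomic p)
    (hsplit : ∀ σ : GQ, ∃ α β : kk, LinearMap.charpoly (ρbar.ρ σ) = (X - C α) * (X - C β))
    (𝒟 : Cond 𝒪) (h𝒟 : ImpliesFlat 𝒪 p 𝒟) (T : Finset Nat.Primes) :
    LocBound ρbar 𝒟 T ⟨p, hp.out⟩ 1 := by
  by_cases hline : ∃ ℓ : Submodule kk ρbar.V, Module.finrank kk ℓ = 1 ∧
      ∀ σ : PadicAlgCl p ≃ₐ[ℚ_[p]] PadicAlgCl p, ∀ v ∈ ℓ,
        ρbar.ρ (localGaloisToGlobal p σ) v ∈ ℓ
  · exact hOrd ρbar 𝒟 h𝒟 T hline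
  · refine hSS ρbar 𝒟 h𝒟 T (fun π ζ hπ hζ => ?_)
    exact (local_shape_at_p hp2 ρbar hdet hsplit hπ hζ).resolve_left hline

/-- The `Q`-problem attached to the flat condition implies "cyclotomic determinant and flat". -/
theorem impliesFlat_condQ_flat (p : ℕ) (Smin Q : Finset ℕ) :
    ImpliesFlat 𝒪 p (condQ (GaloisRep.flatCondition 𝒪) p Smin Q) := by
  letI : Algebra 𝒪 (DualNumber kk) := dualNumberAlgebra 𝒪
  intro ρ h
  exact ⟨h.1.1, h.1.2.1⟩

/-- **LOC-flat for the `Q`-problems of S56** (input `hLOCp` of the GW assembly, flat case). -/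
theorem locBound_flat_condQ {p : ℕ} [hp : Fact p.Prime] (hp2 : p ≠ 2)
    [CharP kk p] [Finite kk] (hOrd : OrdBranchOut 𝒪 p) (hSS : SSBranchOut 𝒪 p)
    (ρbar : ResidualGaloisRep kk)
    (hdet : (GaloisRepAdic.ofResidualGaloisRep ρbar).DetIsCyclotomic p)
    (hsplit : ∀ σ : GQ, ∃ α β : kk, LinearMap.charpoly (ρbar.ρ σ) = (X - C α) * (X - C β))
    (Smin Q : Finset ℕ) (T : Finset Nat.Primes) :
    LocBound ρbar (condQ (GaloisRep.flatCondition 𝒪) p Smin Q) T ⟨p, hp.out⟩ 1 :=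
  locBound_flat_of_branches hp2 hOrd hSS ρbar hdet hsplit _ (impliesFlat_condQ_flat p Smin Q) T

end Fermat.Agent.TW.LocFlat
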