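import Fermat.Agent.TW.LocFlat.AllowedH1
import Fermat.Agent.TW.KumEigen.Main

/-!
# S56 / LOC-flat, supersingular branch: the eigenspace-count contract `MainOut p` is a theorem

`mainOut p : MainOut p` is helper20's `KumEigen.finrank_range_le_one` (`TW/KumEigen/Main.lean`)
specialised to `F = ℚ_p`, `Ω = PadicAlgCl p`, binder for binder.
-/

set_option autoImplicit false

namespace Fermat.Agent.TW.LocFlat

open Fermat.Agent.TW.KumEigen

/-- **The eigenspace-count contract is a theorem.** -/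
theorem mainOut (p : ℕ) [Fact p.Prime] : MainOut p :=
  fun D _ _ _ _ _ _ _ hp2 hpM act hact hH M₀ M₁ hc h₀s h₁s hτ₀ hinv₀ hcard₁ hτ₁ hdich Z hZ _ _ _
      f hf =>
    finrank_range_le_one D hp2 hpM act hact hH M₀ M₁ hc h₀s h₁s hτ₀ hinv₀ hcard₁ hτ₁ hdich
      Z hZ f hf

end Fermat.Agent.TW.LocFlat
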