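import Mathlib
import Fermat.Agent.TW.LocFlat.Main
import Fermat.Agent.TW.LocFlat.LocBoundSS
import Fermat.Agent.TW.LocFlat.A5
import Fermat.Agent.TW.AdOp.Main
import Fermat.Agent.TW.K1.Term
import Fermat.Agent.TW.LocFlat.MainOut

/-!
# S56 / LOC-flat: the supersingular branch, wired

`ssBranchOut : SSBranchOut 𝒪 p` (with helper28's `mainOut : MainOut p`, i.e. helper20's eigenspace
count `finrank_range_le_one`):

helper10's `exists_tameData_master` (the tame datum `D` with `D.H = Gal(Ω/ℚ_p(ζ, π))`) →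
the level-two shape at `(D.π, D.ζ)` → helper26's `operator_form_of_shape` → helper28's `SSOps` →
helper28's `locBound_flat_ss` with `a5FieldOut` and `mainOut`.
-/

set_option autoImplicit false
set_option linter.unusedSectionVars false
set_option linter.style.haveILetI false

namespace Fermat.Agent.TW.LocFlat

open IsLocalRing Fermat.Agent.TW.Contracts Fermat.Agent.TW.LocalSpan Fermat.Agent.TW.KumEigen
  Fermat.Agent.TW.Bridge.ShapeLocalMain Fermat.Agent.TW.Ad0

variable {𝒪 : Type} [CommRing 𝒪] [IsLocalRing 𝒪]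

local notation "kk" => ResidueField 𝒪

/-- **The SS branch of LOC-flat.** -/
theorem ssBranchOut {p : ℕ} [hp : Fact p.Prime] (hp2 : p ≠ 2) [CharP kk p] [Finite kk] :
    SSBranchOut 𝒪 p := by
  intro ρbar 𝒟 h𝒟 T hss
  obtain ⟨D, F, hDH, -, hFfin, hπ, hζF, hφζ, -, -, -, hfi, -, hidx, -, hFgal⟩ :=
    Fermat.Agent.TW.K1.exists_tameData_master p
  have hshape := hss D.π D.ζ hπ D.hζ
  set v : Nat.Primes := ⟨p, hp.out⟩ with hv
  obtain ⟨-, -, hH, hdecomp⟩ := Fermat.Agent.TW.AdOp.operator_form_of_shape (p := p) ρbar hp2 D hφζ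
    (repActZ (Rep.res (localGaloisToGlobal p) (ad0Rep ρbar))) (fun _ _ => rfl) hshape
  have hops : SSOps ρbar v D := ⟨hH, hdecomp⟩
  exact locBound_flat_ss v hp2 (a5FieldOut p) (mainOut p) D F hDH hFfin hFgal hζF hfi (hidx hp2)
    ρbar 𝒟 h𝒟 T hops

end Fermat.Agent.TW.LocFlat
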