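import Mathlib
import Fermat.Agent.TW.LocFlat.SSBranch

/-!
# S56 / LOC-flat: the output of the block, in the literal shape of the GW assembly

`locFlatOut_of_ordBranch` has, as its conclusion, literally the body of helper24's contract
`Fermat.Agent.TW.GW.ArithOut.LocFlatOut` (TW/GW/ArithOut.lean): the only remaining input is the ORD
branch (`OrdBranchOut`, helper19's `locBound_flat_ord`), the SS branch being `ssBranchOut`.
-/

set_option autoImplicit false
set_option linter.unusedSectionVars false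
set_option linter.style.haveILetI false

namespace Fermat.Agent.TW.LocFlat

open IsLocalRing Polynomial Fermat.Agent.TW.Contracts Fermat.Agent.TW.LocalSpan

local notation "GQ" => (AlgebraicClosure ℚ ≃ₐ[ℚ] AlgebraicClosure ℚ)

/-- **LOC-flat**, from the ORD branch. -/
theorem locFlatOut_of_ordBranch
    (hOrd : ∀ (𝒪 : Type) [CommRing 𝒪] [IsLocalRing 𝒪] (p : ℕ) [Fact p.Prime], p ≠ 2 →
      ∀ [CharP (ResidueField 𝒪) p] [Finite (ResidueField 𝒪)], OrdBranchOut 𝒪 p) :
    ∀ (𝒪 : Type) [CommRing 𝒪] [IsLocalRing 𝒪] (p : ℕ) [hp : Fact p.Prime], p ≠ 2 →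
      ∀ [CharP (ResidueField 𝒪) p] [Finite (ResidueField 𝒪)]
        (ρbar : ResidualGaloisRep (ResidueField 𝒪)),
        (GaloisRepAdic.ofResidualGaloisRep ρbar).DetIsCyclotomic p →
        (∀ σ : GQ, ∃ α β : ResidueField 𝒪,
          LinearMap.charpoly (ρbar.ρ σ) = (X - C α) * (X - C β)) →
        ∀ 𝒟 : Cond 𝒪,
          (letI : Algebra 𝒪 (DualNumber (ResidueField 𝒪)) := dualNumberAlgebra 𝒪
            ∀ ρ : GaloisRepAdic (DualNumber (ResidueField 𝒪)), 𝒟 ρ →
              ρ.DetIsCyclotomic p ∧ ρ.IsFlatAt p) →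
          ∀ T : Finset Nat.Primes, LocBound ρbar 𝒟 T ⟨p, hp.out⟩ 1 := by
  intro 𝒪 _ _ p hp hp2 _ _ ρbar hdet hsplit 𝒟 h𝒟 T
  exact locBound_flat_of_branches hp2 (hOrd 𝒪 p hp2) (ssBranchOut hp2) ρbar hdet hsplit 𝒟 h𝒟 T

end Fermat.Agent.TW.LocFlat
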