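import Mathlib
import Fermat.Agent.TW.LocFlat.AllowedOfFlat
import Fermat.Agent.S55.LCBridgeLocal

/-!
# S56 / LOC-flat, ORD case: literal contracts (ruling R13, referee's route for OF-4)

`Ω = PadicAlgCl p`, `G_p = Gal(Ω/ℚ_p)`, norm language.

* `AllowedAt p F ζp ξ` : the `Allowed` condition over an intermediate field `F` (no tame datum):
  every Kummer radical `β` of `lam ∘ ξ|G_F` has `β ^ p ∈ (1 + p O_F) F^{×p}`;
* `allowedAt_of_vanish`, `allowedAt_of_flat` : a function vanishing where a flat `k[ε]`-rep is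
  trivial (e.g. a flat tangent cocycle) is `AllowedAt` every `F ∋ ζ_p` (from `A5FieldOut`);
* `IsOrdField p F` : the field `F' = K'(ζ_p)` of the blueprint (#1565 B.3): finite normal over `ℚ_p`,
  contains `μ_p`, value group `‖ζ_p - 1‖^ℤ` (i.e. `e = p - 1`), abelian over `ℚ_p`
  (commutators of `G_p` fix it);
* `OrdFieldOut p` : for every `N > 0` such an `F` exists which kills every unramified LC character
  of `G_p` of exponent dividing `p * N`;
* `OrdCountOut p k` (OF-4): two `AllowedAt` cocycles `G_p → k(χ)`, `χ` trivial on `G_F` and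
  nontrivial on inertia, are `k`-linearly dependent modulo coboundaries;
* `TriFlatOut p k` (F2): a flat deformation to `k[ε]` of a `D_P`-reducible `ρbar` is ordinary, in
  matrix form.
-/

set_option autoImplicit false
set_option linter.unusedSectionVars false
set_option linter.style.haveILetI false

namespace Fermat.Agent.TW.LocFlat

open IsLocalRing Fermat.Agent.S53 Fermat.Agent.S55 Fermat.Agent.TW.Sel Fermat.Agent.TW.Ad0
  Fermat.Agent.TW.Ram Fermat.Agent.TW.FlatBridge IntermediateField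

local notation "Qb" => AlgebraicClosure ℚ
local notation "GQ" => (AlgebraicClosure ℚ ≃ₐ[ℚ] AlgebraicClosure ℚ)
local notation "M2" => Matrix (Fin 2) (Fin 2)

variable (p : ℕ) [hp : Fact p.Prime]

local notation "Ωp" => PadicAlgCl p
local notation "Gp" => (PadicAlgCl p ≃ₐ[ℚ_[p]] PadicAlgCl p)

/-- **Allowed over the field `F`**: the Kummer radical `β ^ p` of every `lam ∘ ξ|G_F` lies in
`(1 + p O_F) · F^{×p}` (norm form). -/
def AllowedAt (F : IntermediateField ℚ_[p] Ωp) (ζp : Ωp) {M : Type*} [AddCommGroup M]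
    (ξ : Gp → M) : Prop :=
  ∀ (lam : M →+ ZMod p) (β : Ωp), β ≠ 0 →
    (∀ σ ∈ F.fixingSubgroup, σ β = ζp ^ (lam (ξ σ)).val * β) →
      ∃ c ∈ F, c ≠ 0 ∧ ‖β ^ p / c ^ p - 1‖ ≤ ‖(p : Ωp)‖

variable {p} in
theorem AllowedAt.comp {F : IntermediateField ℚ_[p] Ωp} {ζp : Ωp} {M M' : Type*}
    [AddCommGroup M] [AddCommGroup M'] {ξ : Gp → M} (h : AllowedAt p F ζp ξ) (φ : M →+ M') :
    AllowedAt p F ζp (fun σ => φ (ξ σ)) := by
  intro lam β hβ0 hβ
  exact h (lam.comp φ) β hβ0 hβ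

variable {k : Type} [Field k] {ρbar : ResidualGaloisRep k}

/-- **Allowed by vanishing**: a function on `G_p` which vanishes where a flat `k[ε]`-representation
with cyclotomic determinant is trivial is allowed over every field containing `ζ_p`. -/
theorem allowedAt_of_vanish [CharP k p] [Finite k] (hA5 : A5FieldOut p)
    (F : IntermediateField ℚ_[p] Ωp) (ζp : Ωp) (hζp : IsPrimitiveRoot ζp p) (hζF : ζp ∈ F)
    (r : MatRep (DualNumber k)) (hflat : r.toAdic.IsFlatAt p)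
    (hdet : r.toAdic.DetIsCyclotomic p)
    {M : Type*} [AddCommGroup M] (ξ : Gp → M)
    (hξ : ∀ σ : Gp, r (localGaloisToGlobal p σ) = 1 → ξ σ = 0) :
    AllowedAt p F ζp ξ := by
  have hpA : (p : DualNumber k) = 0 := by
    have : (p : DualNumber k) = TrivSqZeroExt.inl (p : k) := by
      rw [← TrivSqZeroExt.inl_natCast]
    rw [this, CharP.cast_eq_zero k p, TrivSqZeroExt.inl_zero]
  haveI : Finite (DualNumber k) := by
    unfold DualNumber TrivSqZeroExt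
    infer_instance
  obtain ⟨L, hfd, hgal, hfix, hP⟩ := exists_fontainePAbove_of_matRep p r hflat hpA
  have hmem : ∀ (E : IntermediateField ℚ_[p] Ωp) (x : Ωp),
      (∀ σ ∈ E.fixingSubgroup, σ x = x) → x ∈ E := by
    intro E x hx
    have h1 : x ∈ IntermediateField.fixedField E.fixingSubgroup := fun σ => hx σ.1 σ.2
    rwa [InfiniteGalois.fixedField_fixingSubgroup] at h1
  intro lam β hβ0 hβ
  have hζL : ζp ∈ L := hmem L _ (fun σ hσ =>
    apply_rootOfUnity_eq_of_matRep_eq_one p r hdet σ ((hfix σ).mp hσ) hζp.pow_eq_one)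
  have hβpF : β ^ p ∈ F := by
    refine hmem F _ (fun σ hσ => ?_)
    rw [map_pow, hβ σ hσ, mul_pow, ← pow_mul, mul_comm _ p, pow_mul, hζp.pow_eq_one,
      one_pow, one_mul]
  have hβFL : β ∈ F ⊔ L := by
    refine hmem (F ⊔ L) _ (fun σ hσ => ?_)
    rw [IntermediateField.fixingSubgroup_sup] at hσ
    have h0 : ξ σ = 0 := hξ σ ((hfix σ).mp hσ.2)
    have h1 := hβ σ hσ.1
    simp only [h0, map_zero, ZMod.val_zero, pow_zero, one_mul] at h1
    exact h1
  exact hA5 L hfd hgal hP F ζp hζp hζF hζL β hβ0 hβpF hβFL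

/-- **A flat tangent cocycle is allowed over every field containing `ζ_p`.** -/
theorem allowedAt_of_flat [CharP k p] [Finite k] (hA5 : A5FieldOut p)
    (F : IntermediateField ℚ_[p] Ωp) (ζp : Ωp) (hζp : IsPrimitiveRoot ζp p) (hζF : ζp ∈ F)
    (r : MatRep (DualNumber k)) (hflat : r.toAdic.IsFlatAt p)
    (hdet : r.toAdic.DetIsCyclotomic p)
    (Lf : TanLift (stdMat ρbar).toHom) (hL : Lf.R = r.toHom) :
    AllowedAt p F ζp (fun τ : Gp => Lf.adCochain (localGaloisToGlobal p τ)) :=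
  allowedAt_of_vanish p hA5 F ζp hζp hζF r hflat hdet _ (fun σ hσ =>
    adCochain_eq_zero_of_apply_eq_one Lf (by rw [hL]; exact hσ))

/-- **The field `F' = K'(ζ_p)` of the ORD case.** -/
structure IsOrdField (F : IntermediateField ℚ_[p] Ωp) : Prop where
  fd : FiniteDimensional ℚ_[p] F
  normal : Normal ℚ_[p] F
  zeta_mem : ∀ z : Ωp, z ^ p = 1 → z ∈ F
  val : ∀ ζ : Ωp, IsPrimitiveRoot ζ p → ∀ x ∈ F, x ≠ 0 → ∃ n : ℤ, ‖x‖ = ‖ζ - 1‖ ^ n
  comm : ∀ g t : Gp, g * t * g⁻¹ * t⁻¹ ∈ F.fixingSubgroup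

/-- **Contract (ORD-FIELD)**: `F := ℚ_p(ζ_{p(p^{pN}-1)})`. -/
def OrdFieldOut : Prop :=
  ∀ N : ℕ, 0 < N → ∃ F : IntermediateField ℚ_[p] Ωp, IsOrdField p F ∧
    ∀ (A : Type) [CommGroup A] (χ : Gp →* A), (∀ g, χ g ^ (p * N) = 1) →
      (levelOf (localGaloisToGlobal p)).IsLC₁ χ →
      (∀ t : Gp, (∀ y : Ωp, ‖y‖ ≤ 1 → ‖t y - y‖ < 1) → χ t = 1) →
      ∀ σ ∈ F.fixingSubgroup, χ σ = 1

/-- **Contract (OF-4), the ORD count** (referee's route, msg 20204): `χ : G_p → kˣ` trivial on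
`G_F` and nontrivial on (norm-)inertia; two LC `χ`-cocycles which are `AllowedAt F` are linearly
dependent modulo coboundaries. -/
def OrdCountOut (k : Type) [Field k] : Prop :=
  ∀ (F : IntermediateField ℚ_[p] Ωp), IsOrdField p F →
  ∀ (ζp : Ωp), IsPrimitiveRoot ζp p →
  ∀ (χ : Gp →* kˣ), (∀ σ ∈ F.fixingSubgroup, χ σ = 1) →
    (∃ t : Gp, (∀ y : Ωp, ‖y‖ ≤ 1 → ‖t y - y‖ < 1) ∧ χ t ≠ 1) →
  ∀ f₁ f₂ : Gp → k,
    (∀ g h, f₁ (g * h) = f₁ g + (χ g : k) * f₁ h) →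
    (∀ g h, f₂ (g * h) = f₂ g + (χ g : k) * f₂ h) →
    (levelOf (localGaloisToGlobal p)).IsLC₁ f₁ → (levelOf (localGaloisToGlobal p)).IsLC₁ f₂ →
    AllowedAt p F ζp f₁ → AllowedAt p F ζp f₂ →
    ∃ b₁ b₂ : k, (b₁ ≠ 0 ∨ b₂ ≠ 0) ∧ ∃ n : k, ∀ g, b₁ * f₁ g + b₂ * f₂ g = ((χ g : k) - 1) * n

/-- **Contract (F2)** `triangular_of_flat` (msg 19935; helper11's `triangular_of_flat_of_line` +
helper5's `exists_ordinary_line_of_isFlatAt`); `conjHom B R σ = B⁻¹ * R σ * B` is unfolded. -/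
def TriFlatOut (k : Type) [Field k] : Prop :=
  ∀ (r : MatRep (DualNumber k)), r.toAdic.IsFlatAt p → r.toAdic.DetIsCyclotomic p →
  ∀ (P : ValuationSubring Qb), P.LiesOverPrime p →
    (∃ B₀ : (M2 k)ˣ, ∀ σ ∈ P.decompositionSubgroup ℚ,
      ((B₀⁻¹ : (M2 k)ˣ) * redHom r.toHom σ * B₀ : M2 k) 1 0 = 0) →
    ∃ B : (M2 (DualNumber k))ˣ,
      (∀ σ ∈ P.decompositionSubgroup ℚ,
        (((B⁻¹ : (M2 (DualNumber k))ˣ) : M2 (DualNumber k)) * r.toHom σ * B) 1 0 = 0) ∧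
      (∀ σ ∈ P.inertiaSubgroupIn ℚ,
        (((B⁻¹ : (M2 (DualNumber k))ˣ) : M2 (DualNumber k)) * r.toHom σ * B) 1 1 = 1 ∧
        ∀ a : ℕ, (∀ μ : Qb, μ ^ p = 1 → σ μ = μ ^ a) →
          (((B⁻¹ : (M2 (DualNumber k))ˣ) : M2 (DualNumber k)) * r.toHom σ * B) 0 0
            = (a : DualNumber k))

end Fermat.Agent.TW.LocFlat
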